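import Mathlib.LinearAlgebra.Matrix.ToLin
import Mathlib.LinearAlgebra.FreeModule.PID
import Mathlib.RingTheory.Finiteness.Basic
import Mathlib.Tactic

/-!
# Linear conditions with coefficients in a principal ideal domain, after extending scalars

If a matrix kills the solutions of a system of linear conditions over a principal ideal domain,
it kills the solutions of the same system in a field containing it.
-/

set_option autoImplicit false

namespace Fermat.Agent.RT.InertiaTW

variable {R : Type*} [CommRing R] [IsDomain R] [IsPrincipalIdealRing R] {K : Type*} [Field K]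

/-- Linear conditions descend. -/
theorem mulVec_eq_zero_of_conditions (j : R →+* K) (hj : Function.Injective j) {ι κ ν : Type*}
    [Fintype ν] (C : ι → ν → R) (X : Matrix κ ν R)
    (h : ∀ w : ν → R, (∀ i, ∑ s, C i s * w s = 0) → X.mulVec w = 0)
    {v : ν → K} (hv : ∀ i, ∑ s, j (C i s) * v s = 0) : (X.map j).mulVec v = 0 := by
  classical
  letI : Algebra R K := j.toAlgebra
  have : Module.IsTorsionFree R K := Module.isTorsionFree_iff_algebraMap_injective.2 hj
  let S : Submodule R K := Submodule.span R (Set.range v)
  have : Module.Finite R S := Module.Finite.span_of_finite R (Set.finite_range v)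
  have : Module.Free R S := Module.free_of_finite_type_torsion_free'
  let b := Module.finBasis R S
  let u : ν → S := fun i => ⟨v i, Submodule.subset_span ⟨i, rfl⟩⟩
  have hval : ∀ c : ν → R, ((∑ s, c s • u s : S) : K) = ∑ s, j (c s) * v s := fun c => by
    rw [Submodule.coe_sum]
    refine Finset.sum_congr rfl fun s _ => ?_
    rw [Submodule.coe_smul, Algebra.smul_def]
    rfl
  have hrepr : ∀ (c : ν → R) (k), ∑ s, c s * b.repr (u s) k = b.repr (∑ s, c s • u s) k := by
    intro c k
    simp [map_sum, Finsupp.finsetSum_apply]
  funext a
  have e : (∑ s, X a s • u s : S) = 0 := by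
    refine b.repr.injective (Finsupp.ext fun k => ?_)
    have hw := congrFun (h (fun i => b.repr (u i) k) fun i => by
      rw [hrepr, show (∑ s, C i s • u s : S) = 0 from Subtype.ext ((hval _).trans (hv i)),
        map_zero, Finsupp.zero_apply]) a
    rw [map_zero, Finsupp.zero_apply, ← hrepr]
    exact hw
  exact (hval (X a)).symm.trans (congrArg Subtype.val e)

end Fermat.Agent.RT.InertiaTW
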