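import Fermat.Agent.RT.InertiaTW.Quadratic
import Fermat.Agent.RT.InertiaTW.BaseChange
import Fermat.Agent.GaloisReps.Results
import Fermat.Agent.GaloisReps.Matching

/-!
# The eigenspace of a plane representation in the cohomology of `X₀(N)`

On the common eigenspace of the Hecke operators away from `S` with the eigenvalues given by the
traces of Frobenius of a plane representation `ρ`, the Galois matrices of the Jacobian satisfy the
characteristic polynomials of `ρ`, hence factor through the matrices when `ρ` spans them.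
-/

set_option autoImplicit false

noncomputable section

open IsLocalRing

namespace Fermat.Agent.RT.InertiaTW

open Fermat.Agent.Arith
open GaloisReps (opMat matIn modelOfCongruence CongruenceProperty powerTrace)

/-- The common eigenspace of the Hecke operators away from `S`. -/
def heckePlane (N : ℕ) [NeZero N] (S : Finset ℕ) (c : ℕ → ℂ) :
    Submodule ℂ (Fin (2 * Gamma0.genus N) → ℂ) :=
  ⨅ (ℓ : ℕ) (hℓ : ℓ.Prime) (_ : ℓ ∉ S),
    LinearMap.ker (((opMat N ℓ hℓ).map (Int.castRingHom ℂ)).mulVecLin - c ℓ • LinearMap.id)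

theorem mem_heckePlane {N : ℕ} [NeZero N] {S : Finset ℕ} {c : ℕ → ℂ}
    {v : Fin (2 * Gamma0.genus N) → ℂ} :
    v ∈ heckePlane N S c ↔ ∀ (ℓ : ℕ) (hℓ : ℓ.Prime), ℓ ∉ S →
      ((opMat N ℓ hℓ).map (Int.castRingHom ℂ)).mulVec v = c ℓ • v := by
  simp only [heckePlane, Submodule.mem_iInf, LinearMap.mem_ker, LinearMap.sub_apply,
    Matrix.mulVecLin_apply, LinearMap.smul_apply, LinearMap.id_apply, sub_eq_zero]

theorem mulVec_powerTrace {R : Type*} [CommRing R] {d : ℕ} {H : Matrix (Fin d) (Fin d) R}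
    {v : Fin d → R} {a : R} (h : H.mulVec v = a • v) (ℓ : ℕ) :
    ∀ i : ℕ, (powerTrace H (ℓ : Matrix (Fin d) (Fin d) R) i).mulVec v =
      powerTrace a (ℓ : R) i • v
  | 0 => by
    simp only [powerTrace, ← one_add_one_eq_two, Matrix.add_mulVec, Matrix.one_mulVec, add_smul,
      one_smul]
  | 1 => h
  | i + 2 => by
    rw [powerTrace, powerTrace, Matrix.sub_mulVec, ← Matrix.mulVec_mulVec, ← Matrix.mulVec_mulVec,
      mulVec_powerTrace h ℓ (i + 1), mulVec_powerTrace h ℓ i, Matrix.mulVec_smul,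
      Matrix.mulVec_smul, h, Matrix.natCast_mulVec, sub_smul, smul_smul, ← mul_smul,
      mul_comm a, mul_comm (ℓ : R)]

theorem trace_pow_fin_two {R : Type*} [CommRing R] (M : Matrix (Fin 2) (Fin 2) R) (ℓ : ℕ)
    (hd : M.det = (ℓ : R)) : ∀ i : ℕ, (M ^ i).trace = powerTrace M.trace (ℓ : R) i
  | 0 => by simp [powerTrace]
  | 1 => by rw [pow_one]; rfl
  | i + 2 => by
    have hsq : M * M = M.trace • M - M.det • 1 := by
      ext i j
      fin_cases i <;> fin_cases j <;>
        simp [Matrix.mul_apply, Fin.sum_univ_two, Matrix.trace_fin_two, Matrix.det_fin_two] <;> ring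
    rw [powerTrace, ← trace_pow_fin_two M ℓ hd i, ← trace_pow_fin_two M ℓ hd (i + 1), ← hd,
      show M ^ (i + 2) = (M * M) * M ^ i by rw [← pow_two, ← pow_add, add_comm], hsq, sub_mul,
      smul_mul_assoc, smul_mul_assoc, one_mul, ← pow_succ', Matrix.trace_sub, Matrix.trace_smul,
      Matrix.trace_smul, smul_eq_mul, smul_eq_mul]

variable {N p : ℕ} [NeZero N] [Fact p.Prime] (hES : CongruenceProperty N p)
  {O : Type} [CommRing O] [IsDomain O] [IsDiscreteValuationRing O]
  (ι : ℤ_[p] →+* O) (hpO : (p : O) ∈ maximalIdeal O)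
  (ρ : GQ →* Matrix (Fin 2) (Fin 2) O)
  (hcont : ∀ n : ℕ, ∃ L : IntermediateField ℚ QBar, FiniteDimensional ℚ L ∧
    ∀ σ : GQ, (∀ x ∈ L, σ x = x) → ∀ i j, (ρ σ - 1) i j ∈ maximalIdeal O ^ n)
  (j : O →+* ℂ) (hj : Function.Injective j) (S : Finset ℕ) (c : ℕ → ℂ)
  (hfrob : ∀ ℓ : ℕ, ℓ.Prime → ℓ ∉ S → ∀ B : ValuationSubring QBar, B.LiesOverPrime ℓ →
    ∀ φ : GQ, B.IsFrobeniusAt φ ℓ → j (ρ φ).trace = c ℓ ∧ (ρ φ).det = (ℓ : O))

/-- The Galois matrices of the Jacobian. -/
def jacGal (N p : ℕ) [NeZero N] [Fact p.Prime] :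
    GQ →* Matrix (Fin (2 * Gamma0.genus N)) (Fin (2 * Gamma0.genus N)) ℤ_[p] :=
  (GaloisReps.torsionIso N p (GaloisReps.conjProperty _)).gal

include hES in
theorem jacGal_comm (σ : GQ) (ℓ : ℕ) (hℓ : ℓ.Prime) :
    Commute (jacGal N p σ) ((opMat N ℓ hℓ).map (Int.castRingHom ℤ_[p])) := by
  have h := (modelOfCongruence hES).gal_comm σ (HeckeDuality.heckeOp N 2 ℓ hℓ)
  rw [← GaloisReps.latticeMat_heckeOp ℓ hℓ]
  exact h

include hES in
theorem jacGal_frobenius {ℓ : ℕ} (hℓ : ℓ.Prime) (hℓN : ¬ ℓ ∣ N * p)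
    {B : ValuationSubring QBar} (hB : B.LiesOverPrime ℓ) {φ : GQ} (hφ : B.IsFrobeniusAt φ ℓ) :
    jacGal N p φ * jacGal N p φ -
      (opMat N ℓ hℓ).map (Int.castRingHom ℤ_[p]) * jacGal N p φ + (ℓ : Matrix _ _ ℤ_[p]) = 0 := by
  have h := (modelOfCongruence hES).gal_frobenius ℓ hℓ hℓN B hB φ hφ
  rw [Nat.cast_smul_eq_nsmul, nsmul_eq_mul, mul_one] at h
  rw [← GaloisReps.latticeMat_heckeOp ℓ hℓ]
  exact h

include hES hcont hpO hfrob in
/-- The quadratic relation on integral eigenvectors. -/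
theorem quadratic_integral {w : Fin (2 * Gamma0.genus N) → O}
    (hw : ∀ (ℓ : ℕ) (hℓ : ℓ.Prime), ℓ ∉ S → ∀ a : O, j a = c ℓ →
      ((opMat N ℓ hℓ).map (Int.castRingHom O)).mulVec w = a • w) (σ : GQ) :
    let G := (jacGal N p σ).map ι
    G.mulVec (G.mulVec w) - (ρ σ).trace • G.mulVec w + (ρ σ).det • w = 0 := by
  classical
  intro G
  suffices h : ∀ (n : ℕ) (s), (G.mulVec (G.mulVec w) - (ρ σ).trace • G.mulVec w +
      (ρ σ).det • w) s ∈ maximalIdeal O ^ n by
    funext s
    have hmem : (G.mulVec (G.mulVec w) - (ρ σ).trace • G.mulVec w + (ρ σ).det • w) s ∈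
        ⨅ n : ℕ, maximalIdeal O ^ n := Submodule.mem_iInf _ |>.mpr fun n => h n s
    rwa [Ideal.iInf_pow_eq_bot_of_isLocalRing _ (maximalIdeal.isMaximal O).ne_top,
      Ideal.mem_bot] at hmem
  intro n s
  obtain ⟨L₁, hL₁, h₁⟩ := (modelOfCongruence hES).gal_continuous n
  obtain ⟨L₂, hL₂, h₂⟩ := hcont n
  obtain ⟨ℓ, hℓ, hℓS, B, hB, φ, hφ, i, hi⟩ :=
    GaloisReps.frobeniusDensity (L₁ ⊔ L₂) inferInstance σ (S ∪ (N * p).primeFactors)
  rw [Finset.mem_union, not_or] at hℓS
  have hℓNp : ¬ ℓ ∣ N * p := fun h => hℓS.2 (Nat.mem_primeFactors.mpr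
    ⟨hℓ, h, mul_ne_zero (NeZero.ne N) (Fact.out : p.Prime).ne_zero⟩)
  have hfix := GaloisReps.inv_mul_fixes (fun x hx => (hi x hx).symm)
  obtain ⟨htr, hdet⟩ := hfrob ℓ hℓ hℓS.1 B hB φ hφ
  set H := (opMat N ℓ hℓ).map (Int.castRingHom O)
  set F := (jacGal N p φ).map ι
  have hH : ((opMat N ℓ hℓ).map (Int.castRingHom ℤ_[p])).map ι = H := by
    ext a b
    simp [H]
  have hFH : Commute F H := by
    have := (jacGal_comm hES φ ℓ hℓ).map ι.mapMatrix
    rwa [RingHom.mapMatrix_apply, RingHom.mapMatrix_apply, hH] at this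
  have hF : F * F - H * F + (ℓ : Matrix _ _ O) = 0 := by
    have := congrArg ι.mapMatrix (jacGal_frobenius hES hℓ hℓNp hB hφ)
    simp only [map_add, map_sub, map_mul, map_natCast, map_zero] at this
    rwa [RingHom.mapMatrix_apply, RingHom.mapMatrix_apply, hH] at this
  have hpow := congrArg (fun M => M.mulVec w) (GaloisReps.pow_quadratic hFH.symm ℓ hF i)
  have hHF' : ∀ k, Commute (powerTrace H (ℓ : Matrix _ _ O) k) F := fun k => by
    induction k using Nat.twoStepInduction with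
    | zero => exact Commute.ofNat_left 2 F
    | one => exact hFH.symm
    | more k h1 h2 =>
      exact ((hFH.symm.mul_left h2).sub_left ((Nat.cast_commute ℓ F).mul_left h1))
  have hHF := (hHF' i).pow_right i
  rw [Matrix.add_mulVec, Matrix.sub_mulVec, hHF.eq, ← Matrix.mulVec_mulVec,
    ← Matrix.mulVec_mulVec, mulVec_powerTrace (hw ℓ hℓ hℓS.1 _ htr) ℓ i, Matrix.mulVec_smul,
    Matrix.natCast_mulVec, Matrix.zero_mulVec, ← trace_pow_fin_two (ρ φ) ℓ hdet i, Nat.cast_pow,
    ← hdet, ← Matrix.det_pow, ← map_pow] at hpow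
  -- compare modulo the `n`-th power
  set π := Ideal.Quotient.mk (maximalIdeal O ^ n)
  have hG : G.map π = (F ^ i).map π := by
    have e : (jacGal N p σ).map (PadicInt.toZModPow n) =
        (jacGal N p (φ ^ i)).map (PadicInt.toZModPow n) := by
      have := h₁ _ fun x hx => hfix x (le_sup_left (b := L₂) hx)
      change (jacGal N p ((φ ^ i)⁻¹ * σ)).map (PadicInt.toZModPow n) = 1 at this
      rw [← mul_inv_cancel_left (φ ^ i) σ, map_mul, Matrix.map_mul, this, mul_one]
    rw [map_pow] at e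
    have hker : ∀ z : ℤ_[p], PadicInt.toZModPow n z = 0 → π (ι z) = 0 := fun z hz => by
      have hz' : z ∈ RingHom.ker (PadicInt.toZModPow n) := hz
      rw [PadicInt.ker_toZModPow, Ideal.mem_span_singleton'] at hz'
      obtain ⟨b, rfl⟩ := hz'
      rw [map_mul, map_pow, map_natCast, Ideal.Quotient.eq_zero_iff_mem]
      exact Ideal.mul_mem_left _ _ (Ideal.pow_mem_pow hpO n)
    ext a b
    have h0 := congrFun (congrFun e a) b
    rw [show F ^ i = ((jacGal N p φ) ^ i).map ι from (map_pow ι.mapMatrix _ i).symm]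
    simp only [G, Matrix.map_apply] at h0 ⊢
    rw [← sub_eq_zero, ← map_sub, ← map_sub]
    exact hker _ (by rw [map_sub, h0, sub_self])
  have hR : π.mapMatrix (ρ σ) = π.mapMatrix (ρ (φ ^ i)) := by
    have h0 : π.mapMatrix (ρ ((φ ^ i)⁻¹ * σ)) = 1 := by
      rw [← map_one π.mapMatrix, ← sub_eq_zero, ← map_sub]
      ext a b
      exact Ideal.Quotient.eq_zero_iff_mem.mpr
        (h₂ _ (fun x hx => hfix x (le_sup_right (a := L₁) hx)) a b)
    rw [← mul_inv_cancel_left (φ ^ i) σ, map_mul, map_mul, h0, mul_one]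
  refine Ideal.Quotient.eq_zero_iff_mem.mp ?_
  have hpow' := congrArg π (congrFun hpow s)
  have ht : π (ρ σ).trace = π (ρ (φ ^ i)).trace := by
    have := congrArg Matrix.trace hR
    simpa [Matrix.trace_fin_two] using this
  have hd : π (ρ σ).det = π (ρ (φ ^ i)).det := by
    rw [RingHom.map_det, RingHom.map_det, hR]
  simp only [Pi.add_apply, Pi.sub_apply, Pi.smul_apply, smul_eq_mul, map_add, map_sub, map_mul,
    Pi.zero_apply, map_zero, RingHom.map_mulVec] at hpow' ⊢
  rw [hG, ht, hd, show ⇑π ∘ G.mulVec w = fun k => π ((F ^ i).mulVec w k) from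
    funext fun k => by rw [Function.comp_apply, RingHom.map_mulVec, RingHom.map_mulVec, hG]]
  simpa only [Function.comp_def, RingHom.map_mulVec] using hpow'

include hES hcont hpO hfrob hj in
/-- The quadratic relation on the eigenspace. -/
theorem quadratic_complex (σ : GQ) {v : Fin (2 * Gamma0.genus N) → ℂ}
    (hv : v ∈ heckePlane N S c) :
    ((jacGal N p σ).map (j.comp ι)).mulVec (((jacGal N p σ).map (j.comp ι)).mulVec v) -
      ((ρ σ).map j).trace • ((jacGal N p σ).map (j.comp ι)).mulVec v +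
      ((ρ σ).map j).det • v = 0 := by
  classical
  set G := (jacGal N p σ).map ι with hG
  set X : Matrix (Fin (2 * Gamma0.genus N)) (Fin (2 * Gamma0.genus N)) O :=
    G * G - (ρ σ).trace • G + (ρ σ).det • 1 with hX
  rw [mem_heckePlane] at hv
  have h := mulVec_eq_zero_of_conditions j hj
    (C := fun (z : {z : ℕ × O // z.1.Prime ∧ z.1 ∉ S ∧ j z.2 = c z.1} ×
        Fin (2 * Gamma0.genus N)) s =>
      ((opMat N z.1.1.1 z.1.2.1).map (Int.castRingHom O) - z.1.1.2 • 1) z.2 s)
    X (v := v) (fun w hw => by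
      have hq := quadratic_integral hES ι hpO ρ hcont j S c hfrob (w := w)
        (fun ℓ hℓ hℓS a ha => by
          funext k
          have h0 : (((opMat N ℓ hℓ).map (Int.castRingHom O) - a • 1).mulVec w) k = 0 :=
            hw (⟨(ℓ, a), hℓ, hℓS, ha⟩, k)
          rwa [Matrix.sub_mulVec, Matrix.smul_mulVec, Matrix.one_mulVec, Pi.sub_apply,
            sub_eq_zero] at h0) σ
      rw [hX, Matrix.add_mulVec, Matrix.sub_mulVec, ← Matrix.mulVec_mulVec, Matrix.smul_mulVec,
        Matrix.smul_mulVec, Matrix.one_mulVec]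
      exact hq) (fun z => by
      obtain ⟨⟨⟨ℓ, a⟩, hℓ, hℓS, ha⟩, k⟩ := z
      have h0 := congrFun (hv ℓ hℓ hℓS) k
      have e : ∀ s, j (((opMat N ℓ hℓ).map (Int.castRingHom O) - a • 1) k s) =
          ((opMat N ℓ hℓ).map (Int.castRingHom ℂ) - c ℓ • 1) k s := fun s => by
        simp [Matrix.one_apply, ← ha, apply_ite j]
      show ∑ s, j (((opMat N ℓ hℓ).map (Int.castRingHom O) - a • 1) k s) * _ = 0
      simp only [e]
      show (((opMat N ℓ hℓ).map (Int.castRingHom ℂ) - c ℓ • 1).mulVec _) k = 0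
      rw [Matrix.sub_mulVec, Matrix.smul_mulVec, Matrix.one_mulVec, Pi.sub_apply, sub_eq_zero]
      exact h0)
  have e1 : G.map j = (jacGal N p σ).map (j.comp ι) := by
    rw [hG, Matrix.map_map]; rfl
  have et : j (ρ σ).trace = ((ρ σ).map j).trace := by simp [Matrix.trace_fin_two]
  have ed : j (ρ σ).det = ((ρ σ).map j).det := RingHom.map_det j (ρ σ)
  have hXj : X.map j = G.map j * G.map j - j (ρ σ).trace • G.map j + j (ρ σ).det • 1 := by
    rw [hX, Matrix.map_add j (map_add j), Matrix.map_sub j (map_sub j), Matrix.map_mul,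
      Matrix.map_smul' _ _ _ (map_mul j), Matrix.map_smul' _ _ _ (map_mul j),
      Matrix.map_one j (map_zero j) (map_one j)]
  rw [hXj, e1, et, ed, Matrix.add_mulVec, Matrix.sub_mulVec, ← Matrix.mulVec_mulVec,
    Matrix.smul_mulVec, Matrix.smul_mulVec, Matrix.one_mulVec] at h
  exact h

include hES hcont hpO hfrob hj in
/-- The Galois action on the eigenspace factors through the matrices. -/
theorem exists_planeAction
    (hspan : Submodule.span ℂ (Set.range fun σ => (ρ σ).map j) = ⊤) :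
    ∃ Φ : Matrix (Fin 2) (Fin 2) ℂ →ₐ[ℂ] Module.End ℂ (heckePlane N S c),
      ∀ σ (v : heckePlane N S c), (Φ ((ρ σ).map j) v : Fin (2 * Gamma0.genus N) → ℂ) =
        ((jacGal N p σ).map (j.comp ι)).mulVec v := by
  classical
  have hcomm : ∀ σ, ∀ v ∈ heckePlane N S c,
      ((jacGal N p σ).map (j.comp ι)).mulVecLin v ∈ heckePlane N S c := by
    intro σ v hv
    rw [mem_heckePlane] at hv ⊢
    intro ℓ hℓ hℓS
    have h := (jacGal_comm hES σ ℓ hℓ).map (j.comp ι).mapMatrix
    have e : ((opMat N ℓ hℓ).map (Int.castRingHom ℤ_[p])).map (j.comp ι) =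
        (opMat N ℓ hℓ).map (Int.castRingHom ℂ) := by
      ext a b
      simp
    rw [RingHom.mapMatrix_apply, RingHom.mapMatrix_apply, e] at h
    rw [Matrix.mulVecLin_apply, Matrix.mulVec_mulVec, ← h.eq, ← Matrix.mulVec_mulVec,
      hv ℓ hℓ hℓS, Matrix.mulVec_smul]
  let G : GQ →* Matrix (Fin (2 * Gamma0.genus N)) (Fin (2 * Gamma0.genus N)) ℂ :=
    (j.comp ι).mapMatrix.toMonoidHom.comp (jacGal N p)
  let r : GQ →* Module.End ℂ (heckePlane N S c) :=
    { toFun := fun σ => (G σ).mulVecLin.restrict (hcomm σ)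
      map_one' := by
        refine LinearMap.ext fun v => Subtype.ext ?_
        show (G 1).mulVec v.1 = v.1
        rw [map_one, Matrix.one_mulVec]
      map_mul' := fun σ τ => by
        refine LinearMap.ext fun v => Subtype.ext ?_
        show (G (σ * τ)).mulVec v.1 = (G σ).mulVec ((G τ).mulVec v.1)
        rw [map_mul, Matrix.mulVec_mulVec] }
  let ρC : GQ →* Matrix (Fin 2) (Fin 2) ℂ := j.mapMatrix.toMonoidHom.comp ρ
  have hquad : ∀ σ, r σ * r σ - (ρC σ).trace • r σ + (ρC σ).det • (1 : Module.End ℂ _) = 0 :=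
    fun σ => LinearMap.ext fun v => Subtype.ext
      (quadratic_complex hES ι hpO ρ hcont j hj S c hfrob σ v.2)
  obtain ⟨Φ, hΦ⟩ := exists_algHom_of_quadratic (A := Module.End ℂ (heckePlane N S c))
    (ρ := ρC) (r := r) hquad hspan
  exact ⟨Φ, fun σ v => congrArg Subtype.val (LinearMap.congr_fun (hΦ σ) v)⟩

/-- The image of a spanning set spans after extending scalars. -/
theorem span_map_eq_top {T : Type*} [CommRing T] (f : T →+* ℂ)
    {s : Set (Matrix (Fin 2) (Fin 2) T)} (hs : Submodule.span T s = ⊤) :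
    Submodule.span ℂ ((fun X => X.map f) '' s) = ⊤ := by
  refine top_le_iff.mp fun Y _ => ?_
  rw [Matrix.matrix_eq_sum_single Y]
  refine Submodule.sum_mem _ fun i _ => Submodule.sum_mem _ fun k _ => ?_
  rw [show Matrix.single i k (Y i k) = Y i k • (Matrix.single i k (1 : T)).map f by
    rw [Matrix.map_single i k (1 : T) f, map_one, Matrix.smul_single, smul_eq_mul, mul_one]]
  refine Submodule.smul_mem _ _ ?_
  have hmem : Matrix.single i k (1 : T) ∈ Submodule.span T s := hs ▸ Submodule.mem_top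
  generalize Matrix.single i k (1 : T) = M at hmem
  induction hmem using Submodule.span_induction with
  | mem x hx => exact Submodule.subset_span ⟨x, hx, rfl⟩
  | zero => rw [Matrix.map_zero _ (map_zero f)]; exact zero_mem _
  | add x y _ _ hx hy => rw [Matrix.map_add f (map_add f)]; exact add_mem hx hy
  | smul a x _ hx =>
    rw [show (a • x).map f = f a • x.map f by ext; simp]
    exact Submodule.smul_mem _ _ hx

end Fermat.Agent.RT.InertiaTW
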