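import Fermat.Agent.Carayol.Inertial
import Mathlib.LinearAlgebra.Lagrange

/-!
# Inertia at `q` and the `q`-th roots of unity

The subgroup of inertia fixing the `q`-th roots of unity, chosen lifts of the units modulo `q`,
and the constants fixed by that subgroup: polynomials in `ζ` over the field fixed by inertia.
-/

set_option autoImplicit false

noncomputable section

namespace Fermat.Agent.RT.InertiaTW

open Fermat.Agent.Arith Polynomial
open Fermat.Agent.Carayol (inertiaField mem_inertiaField)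

/-- The inertia elements fixing the `q`-th roots of unity. -/
def tameH (A : ValuationSubring QBar) (q : ℕ) : Subgroup GQ where
  carrier := {σ | σ ∈ A.inertiaSubgroupIn ℚ ∧ ∀ μ : QBar, μ ^ q = 1 → σ μ = μ}
  one_mem' := ⟨one_mem _, fun _ _ => rfl⟩
  mul_mem' {σ τ} hσ hτ := ⟨mul_mem hσ.1 hτ.1, fun μ hμ => by
    rw [AlgEquiv.mul_apply, hτ.2 μ hμ, hσ.2 μ hμ]⟩
  inv_mem' {σ} hσ := ⟨inv_mem hσ.1, fun μ hμ => σ.injective (by
    rw [← AlgEquiv.mul_apply, mul_inv_cancel, AlgEquiv.one_apply, hσ.2 μ hμ])⟩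

variable {A : ValuationSubring QBar} {q : ℕ}

theorem mem_tameH {σ : GQ} :
    σ ∈ tameH A q ↔ σ ∈ A.inertiaSubgroupIn ℚ ∧ ∀ μ : QBar, μ ^ q = 1 → σ μ = μ := Iff.rfl

theorem tameH_le : tameH A q ≤ A.inertiaSubgroupIn ℚ := fun _ h => h.1

variable [Fact q.Prime]

theorem pow_val_mul {μ : QBar} (hμ : μ ^ q = 1) (u w : (ZMod q)ˣ) :
    (μ ^ (u : ZMod q).val) ^ (w : ZMod q).val = μ ^ ((u * w : (ZMod q)ˣ) : ZMod q).val := by
  rw [← pow_mul, Units.val_mul, ZMod.val_mul, ← pow_eq_pow_mod _ hμ]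

variable (hA : A.LiesOverPrime q)

include hA in
theorem exists_inertia_lift (w : (ZMod q)ˣ) :
    ∃ σ ∈ A.inertiaSubgroupIn ℚ, ∀ μ : QBar, μ ^ q = 1 → σ μ = μ ^ (w : ZMod q).val := by
  have hq : q.Prime := Fact.out
  obtain ⟨ζ, hζ⟩ := HasEnoughRootsOfUnity.exists_primitiveRoot QBar q
  obtain ⟨σ, hσ, hσζ⟩ := Mazur.Eisenstein.exists_inertia_apply hA hq (m := 0)
    (ζ := ζ) (η := ζ ^ (w : ZMod q).val) (by rwa [zero_add, pow_one])
    (by rw [zero_add, pow_one]; exact hζ.pow_of_coprime _ (ZMod.val_coe_unit_coprime w))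
  refine ⟨σ, hσ, fun μ hμ => ?_⟩
  obtain ⟨i, -, rfl⟩ := hζ.eq_pow_of_pow_eq_one hμ
  rw [map_pow, hσζ, pow_right_comm]

/-- An inertia element raising the `q`-th roots of unity to the power `w`. -/
def inertiaLift (w : (ZMod q)ˣ) : GQ := (exists_inertia_lift hA w).choose

theorem inertiaLift_mem (w : (ZMod q)ˣ) : inertiaLift hA w ∈ A.inertiaSubgroupIn ℚ :=
  (exists_inertia_lift hA w).choose_spec.1

theorem inertiaLift_apply (w : (ZMod q)ˣ) {μ : QBar} (hμ : μ ^ q = 1) :
    inertiaLift hA w μ = μ ^ (w : ZMod q).val :=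
  (exists_inertia_lift hA w).choose_spec.2 μ hμ

include hA in
/-- A constant fixed by `tameH` is a polynomial in `ζ` over the field fixed by inertia. -/
theorem exists_aeval_eq_of_fixed {ζ c : QBar} (hζ : IsPrimitiveRoot ζ q)
    (hc : ∀ σ ∈ tameH A q, σ c = c) :
    ∃ P : Polynomial (inertiaField A), Polynomial.aeval ζ P = c := by
  classical
  set v : (ZMod q)ˣ → QBar := fun w => ζ ^ (w : ZMod q).val with hv
  set r : (ZMod q)ˣ → QBar := fun w => inertiaLift hA w c with hr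
  have hvinj : Set.InjOn v (Finset.univ : Finset (ZMod q)ˣ) := fun a _ b _ h =>
    Units.ext (ZMod.val_injective q (hζ.pow_inj (ZMod.val_lt _) (ZMod.val_lt _) h))
  set P := Lagrange.interpolate Finset.univ v r with hP
  have hfix : ∀ σ ∈ A.inertiaSubgroupIn ℚ, P.map (σ : QBar →+* QBar) = P := by
    intro σ hσ
    obtain ⟨i, hi, hiu⟩ := hζ.eq_pow_of_pow_eq_one (show σ ζ ^ q = 1 by
      rw [← map_pow, hζ.pow_eq_one, map_one])
    have hic : i.Coprime q := by
      refine ((Fact.out : q.Prime).coprime_iff_not_dvd.mpr fun h => ?_).symm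
      have h0 : i = 0 := Nat.eq_zero_of_dvd_of_lt h hi
      exact hζ.ne_one (Fact.out : q.Prime).one_lt (σ.injective (by
        rw [← hiu, h0, pow_zero, map_one]))
    set u : (ZMod q)ˣ := ZMod.unitOfCoprime i hic
    have hu : ∀ μ : QBar, μ ^ q = 1 → σ μ = μ ^ (u : ZMod q).val := fun μ hμ => by
      obtain ⟨j, -, rfl⟩ := hζ.eq_pow_of_pow_eq_one hμ
      rw [ZMod.coe_unitOfCoprime, ZMod.val_natCast, Nat.mod_eq_of_lt hi, map_pow, ← hiu,
        pow_right_comm]
    refine Lagrange.eq_interpolate_of_eval_eq r hvinj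
      (lt_of_le_of_lt Polynomial.degree_map_le (Lagrange.degree_interpolate_lt r hvinj)) fun w _ => ?_
    have hvq : ∀ w, v w ^ q = 1 := fun w => by
      rw [hv, ← pow_mul, mul_comm, pow_mul, hζ.pow_eq_one, one_pow]
    have e1 : σ (v (u⁻¹ * w)) = v w := by
      rw [hu _ (hvq _), hv, pow_val_mul hζ.pow_eq_one, mul_comm (u⁻¹ * w), mul_inv_cancel_left]
    have e2 : σ (r (u⁻¹ * w)) = r w := by
      have hmem : (inertiaLift hA w)⁻¹ * (σ * inertiaLift hA (u⁻¹ * w)) ∈ tameH A q := by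
        refine ⟨mul_mem (inv_mem (inertiaLift_mem hA w))
          (mul_mem hσ (inertiaLift_mem hA _)), fun μ hμ => (inertiaLift hA w).injective ?_⟩
        rw [← AlgEquiv.mul_apply, mul_inv_cancel_left, AlgEquiv.mul_apply,
          inertiaLift_apply hA _ hμ, hu _ (by rw [← pow_mul, mul_comm, pow_mul, hμ, one_pow]),
          pow_val_mul hμ, mul_comm (u⁻¹ * w), mul_inv_cancel_left, inertiaLift_apply hA w hμ]
      have := congrArg (inertiaLift hA w) (hc _ hmem)
      rwa [← AlgEquiv.mul_apply, mul_inv_cancel_left] at this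
    rw [← e1, ← e2, Polynomial.eval_map, ← Lagrange.eval_interpolate_at_node r hvinj
      (Finset.mem_univ (u⁻¹ * w))]
    exact (Polynomial.eval₂_at_apply (σ : QBar →+* QBar) _).trans rfl
  have hlift : P ∈ Polynomial.lifts (algebraMap (inertiaField A) QBar) := by
    rw [Polynomial.lifts_iff_coeff_lifts]
    intro k
    refine ⟨⟨P.coeff k, (mem_inertiaField A).mpr fun σ hσ => ?_⟩, rfl⟩
    conv_rhs => rw [← hfix σ hσ]
    rw [Polynomial.coeff_map]
    rfl
  obtain ⟨P₀, hP₀⟩ := hlift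
  refine ⟨P₀, ?_⟩
  have hv1 : v 1 = ζ := by rw [hv]; simp [ZMod.val_one]
  have hr1 : r 1 = c := hc _ ⟨inertiaLift_mem hA 1, fun μ hμ => by
    rw [inertiaLift_apply hA 1 hμ]; simp [ZMod.val_one]⟩
  rw [← hr1, ← Lagrange.eval_interpolate_at_node r hvinj (Finset.mem_univ 1), hv1, ← hP, ← hP₀]
  exact (Polynomial.aeval_def _ _).trans (Polynomial.eval_map _ _).symm

end Fermat.Agent.RT.InertiaTW
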