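import Fermat.Agent.RT.InertiaTW.Hollow
import Fermat.Agent.RT.InertiaTW.LevelAction
import Fermat.Agent.RT.InertiaTW.Consts
import Fermat.Agent.GaloisReps.Results

/-!
# Monodromy of translates of torsion classes, linearly in the coordinates

`monLin` sends coordinates of a torsion class of `X₀(q R q)` to the monodromy on `Γ(q n)` of its
translate by an element of `GL₂(𝔽_q)`; `exprLin` is the monodromy of the hollowed product.
-/

set_option autoImplicit false

noncomputable section

open CongruenceSubgroup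
open Matrix (GeneralLinearGroup)
open scoped MatrixGroups

namespace Fermat.Agent.RT.InertiaTW

open Fermat.Agent.Arith
open Carayol (diagElt uPlus)
open GaloisReps (atkinHom dualHom coord)

variable (q R n : ℕ) [Fact q.Prime] [NeZero (q * n)] [hcop : Fact (q.Coprime n)]
  [NeZero (q * R * q)] [hR : Fact (R ∣ n)]

omit [Fact q.Prime] hcop [NeZero (q * R * q)] in
theorem rescale_mem (γ : Gamma (q * n)) : rescale q n γ ∈ Gamma0 (q * R * q) :=
  rescale_mem_Gamma0 (R := R) (dvd_of_eq (by ring)) hR.out γ

/-- The rescaling into `Γ₀(q R q)`. -/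
def rescale0 : Gamma (q * n) →* Gamma0 (q * R * q) :=
  (rescale q n).codRestrict _ (rescale_mem q R n)

/-- The homomorphism on `Γ(q n)` with given coordinates. -/
def phiLin (B : Type) [CommRing B] :
    (Fin (2 * Gamma0.genus (q * R * q)) → B) →ₗ[B] (Additive (Gamma (q * n)) →+ B) where
  toFun w := (atkinHom (q * R * q) B
      (∑ i, (zmultiplesHom B (w i)).comp (dualHom (q * R * q) i))).comp
    (MonoidHom.toAdditive (rescale0 q R n))
  map_add' v w := by
    refine AddMonoidHom.ext fun γ => ?_
    simp [GaloisReps.atkinHom, Finset.sum_add_distrib, smul_add]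
  map_smul' c w := by
    refine AddMonoidHom.ext fun γ => ?_
    simp [GaloisReps.atkinHom, Finset.mul_sum, mul_left_comm]

omit [Fact q.Prime] hcop in
theorem phiLin_comp {B C : Type} [CommRing B] [CommRing C] (f : B →+* C)
    (w : Fin (2 * Gamma0.genus (q * R * q)) → B) :
    f.toAddMonoidHom.comp (phiLin q R n B w) = phiLin q R n C (fun i => f (w i)) := by
  refine AddMonoidHom.ext fun γ => ?_
  simp [phiLin, GaloisReps.atkinHom, map_sum, map_zsmul]

omit [Fact q.Prime] hcop in
theorem phiLin_coord {B : Type} [CommRing B] {φ : Additive (Gamma0 (q * R * q)) →+ B}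
    (hφ : φ ∈ Gamma0.ellParHoms (Gamma0 (q * R * q)) B) :
    phiLin q R n B (coord (q * R * q) B (atkinHom (q * R * q) B φ)) =
      φ.comp (MonoidHom.toAdditive (rescale0 q R n)) := by
  show (atkinHom (q * R * q) B _).comp _ = _
  rw [← GaloisReps.eq_sum_dualHom (GaloisReps.atkinHom_mem hφ), GaloisReps.atkinHom_atkinHom]

variable {q R n}

/-- The special linear element through which `h diag(1, (det h)⁻¹)` acts. -/
def sOf (h : GL (Fin 2) (ZMod q)) : SL(2, ZMod q) :=
  ⟨!![(h : Matrix (Fin 2) (Fin 2) (ZMod q)) 1 1 *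
        (((GeneralLinearGroup.det h)⁻¹ : (ZMod q)ˣ) : ZMod q),
      -(h : Matrix (Fin 2) (Fin 2) (ZMod q)) 1 0;
      -((h : Matrix (Fin 2) (Fin 2) (ZMod q)) 0 1 *
        (((GeneralLinearGroup.det h)⁻¹ : (ZMod q)ˣ) : ZMod q)),
      (h : Matrix (Fin 2) (Fin 2) (ZMod q)) 0 0], by
    have hd := Units.inv_mul (GeneralLinearGroup.det h)
    rw [GeneralLinearGroup.val_det_apply, Matrix.det_fin_two] at hd
    rw [Matrix.det_fin_two_of]
    linear_combination hd⟩

section Galois

variable (q R n) {p : ℕ} [Fact p.Prime] {A : ValuationSubring QBar} (hA : A.LiesOverPrime q)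

/-- The Galois matrices of the model of `J₀(q R q)`. -/
def galMat : GQ →* Matrix (Fin (2 * Gamma0.genus (q * R * q)))
    (Fin (2 * Gamma0.genus (q * R * q))) ℤ_[p] :=
  (GaloisReps.torsionIso (q * R * q) p (GaloisReps.conjProperty _)).gal

/-- The monodromy of a translate. -/
def monLin (B : Type) [CommRing B] (ι : ℤ_[p] →+* B) (h : GL (Fin 2) (ZMod q)) :
    (Fin (2 * Gamma0.genus (q * R * q)) → B) →ₗ[B] (Additive (Gamma (q * n)) →+ B) :=
  (DistribSMul.toLinearMap B _ (sOf h)).comp ((phiLin q R n B).comp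
    ((galMat q R (p := p) (inertiaLift hA (GeneralLinearGroup.det h))).map ι).mulVecLin)

theorem monLin_apply (B : Type) [CommRing B] (ι : ℤ_[p] →+* B) (h : GL (Fin 2) (ZMod q))
    (w : Fin (2 * Gamma0.genus (q * R * q)) → B) :
    monLin q R n hA B ι h w = sOf h • phiLin q R n B
      (((galMat q R (p := p) (inertiaLift hA (GeneralLinearGroup.det h))).map ι).mulVec w) :=
  rfl

theorem monLin_comp {B C : Type} [CommRing B] [CommRing C] (f : B →+* C) (ι : ℤ_[p] →+* B)
    (h : GL (Fin 2) (ZMod q)) (w : Fin (2 * Gamma0.genus (q * R * q)) → B) :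
    f.toAddMonoidHom.comp (monLin q R n hA B ι h w) =
      monLin q R n hA C (f.comp ι) h (fun i => f (w i)) := by
  rw [monLin_apply, monLin_apply, comp_smul, phiLin_comp]
  congr 2
  funext i
  exact (RingHom.map_mulVec f _ w i).trans (by rw [Matrix.map_map]; rfl)

/-- The monodromy of the hollowed product of the translates by `uPlus s * g`. -/
def exprLin (B : Type) [CommRing B] (ι : ℤ_[p] →+* B) (e : ℕ) (g : GL (Fin 2) (ZMod q)) :
    (Fin (2 * Gamma0.genus (q * R * q)) → B) →ₗ[B] (Additive (Gamma (q * n)) →+ B) :=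
  e • hollow fun a d => ∑ s : ZMod q, monLin q R n hA B ι (diagElt a d * (uPlus s * g))

theorem exprLin_apply (B : Type) [CommRing B] (ι : ℤ_[p] →+* B) (e : ℕ)
    (g : GL (Fin 2) (ZMod q)) (w : Fin (2 * Gamma0.genus (q * R * q)) → B) :
    exprLin q R n hA B ι e g w =
      e • hollow fun a d => ∑ s : ZMod q, monLin q R n hA B ι (diagElt a d * (uPlus s * g)) w := by
  simp [exprLin, hollow]

theorem exprLin_comp {B C : Type} [CommRing B] [CommRing C] (f : B →+* C) (ι : ℤ_[p] →+* B)
    (e : ℕ) (g : GL (Fin 2) (ZMod q)) (w : Fin (2 * Gamma0.genus (q * R * q)) → B) :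
    f.toAddMonoidHom.comp (exprLin q R n hA B ι e g w) =
      exprLin q R n hA C (f.comp ι) e g (fun i => f (w i)) := by
  let F : (Additive (Gamma (q * n)) →+ B) →+ (Additive (Gamma (q * n)) →+ C) :=
    AddMonoidHom.compHom f.toAddMonoidHom
  show F _ = _
  rw [exprLin_apply, exprLin_apply, map_nsmul, map_hollow]
  congr 2
  funext a d
  rw [map_sum]
  exact Finset.sum_congr rfl fun s _ => monLin_comp q R n hA f ι _ w

end Galois

end Fermat.Agent.RT.InertiaTW
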