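import Fermat.Agent.RT.InertiaTW.FormClass
import Fermat.Agent.RT.InertiaTW.Monodromy
import Fermat.Agent.RT.InertiaTW.GalPlane
import Fermat.Agent.RT.GammaH.Twist
import Fermat.Agent.NewformLocal.Toric.Homs

/-!
# The periods of the twist have nonzero twisted trace

The twist by `χ` of a form of nebentypus `χ⁻²` is an eigenform on `Γ₀(q R q)`; the coordinates
of its periods lie in the Hecke eigenspace and have nonzero twisted trace on `Γ(q n)`.
-/

set_option autoImplicit false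

noncomputable section

open CongruenceSubgroup UpperHalfPlane Matrix.SpecialLinearGroup ModularFormClass
open scoped MatrixGroups ModularForm

namespace Fermat.Agent.RT.InertiaTW

open Fermat.Agent.Periods (IsPrimitive periodMapLin periodMap_mem_parabolicHoms)
open Fermat.Agent.RT.GammaH (IsNeb HasCoeff seqOp nebWeight transl)
open GaloisReps (coord atkinHom opMat homOp)
open ModularCurve (periodMap)

variable {q R n : ℕ} [Fact q.Prime] [NeZero (q * n)] [hcop : Fact (q.Coprime n)]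
  [NeZero (q * R * q)] [hR : Fact (R ∣ n)]

/-- The character on units. -/
def unitChar (χ : DirichletCharacter ℂ q) : (ZMod q)ˣ →* ℂ :=
  (Units.coeHom ℂ).comp χ.toUnitHom

theorem unitChar_apply (χ : DirichletCharacter ℂ q) (u : (ZMod q)ˣ) :
    unitChar χ u = χ (u : ZMod q) := rfl

theorem unitChar_inv (χ : DirichletCharacter ℂ q) (u : (ZMod q)ˣ) :
    χ⁻¹ (u : ZMod q) = unitChar χ u⁻¹ := by
  rw [MulChar.inv_apply, Ring.inverse_unit, unitChar_apply]

theorem periodMap_mem_ellParHoms {N : ℕ} [NeZero N] (F : CuspForm (Gamma0 N) 2) :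
    periodMap N F ∈ Gamma0.ellParHoms (Gamma0 N) ℂ :=
  Gamma0.isParabolicHom_iff_mem_ellParHoms.mp (periodMap_mem_parabolicHoms F)

/-- The coordinates of the periods of an eigenform are eigenvectors. -/
theorem coord_periodMap_mem {N : ℕ} [NeZero N] {S : Finset ℕ} {c : ℕ → ℂ}
    (hS : ∀ ℓ : ℕ, ℓ.Prime → ℓ ∣ N → ℓ ∈ S) (F : CuspForm (Gamma0 N) 2)
    (hF : ∀ (ℓ : ℕ) (hℓ : ℓ.Prime) (hℓN : ¬ ℓ ∣ N), ℓ ∉ S →
      CuspForm.heckeTLin 2 hℓ hℓN F = c ℓ • F) :
    coord N ℂ (atkinHom N ℂ (periodMap N F)) ∈ heckePlane N S c := by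
  rw [mem_heckePlane]
  intro ℓ hℓ hℓS
  have hℓN : ¬ ℓ ∣ N := fun h => hℓS (hS ℓ hℓ h)
  rw [← GaloisReps.coord_homOp ℓ hℓ (GaloisReps.atkinHom_mem (periodMap_mem_ellParHoms F))]
  have h1 : homOp N ℂ ℓ hℓ (atkinHom N ℂ (periodMap N F)) =
      atkinHom N ℂ (homOp N ℂ ℓ hℓ (periodMapLin N F)) := by
    rw [GaloisReps.homOp, dif_neg hℓN]
    exact NewformLocal.Toric.homT_atkinHom hℓ hℓN ℤ _
  have h2 : (HeckeDuality.heckeOp N 2 ℓ hℓ).1 F = c ℓ • F := by
    rw [HeckeDuality.heckeOp, dif_neg hℓN]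
    exact hF ℓ hℓ hℓN hℓS
  rw [h1, GaloisReps.homOp_periodMap, h2, map_smul, Periods.periodMapLin_apply]
  funext i
  rfl

omit [Fact q.Prime] hR [NeZero (q * R * q)] [NeZero (q * n)] hcop in
theorem val_mapGL (g : SL(2, ℤ)) (i j : Fin 2) :
    ((mapGL ℝ g : GL (Fin 2) ℝ) : Matrix (Fin 2) (Fin 2) ℝ) i j = ((g i j : ℤ) : ℝ) := by
  simp

omit hcop [NeZero (q * R * q)] in
/-- A translation conjugates rescaled elements into rescaled elements. -/
theorem transl_mul_rescale (X : ℤ) (γ : Gamma (q * n)) :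
    transl q X * mapGL ℝ (rescale q n γ) =
      mapGL ℝ (rescale q n ⟨ModularGroup.T ^ X * γ * (ModularGroup.T ^ X)⁻¹,
        (Gamma_normal _).conj_mem _ γ.2 _⟩) * transl q X := by
  set γ' : Gamma (q * n) := ⟨ModularGroup.T ^ X * γ * (ModularGroup.T ^ X)⁻¹,
    (Gamma_normal _).conj_mem _ γ.2 _⟩
  have hq : (q : ℝ) ≠ 0 := Nat.cast_ne_zero.mpr (Fact.out : q.Prime).ne_zero
  have hdiv : ∀ δ : Gamma (q * n),
      (((δ : SL(2, ℤ)) 0 1 / (q : ℤ) : ℤ) : ℝ) = (((δ : SL(2, ℤ)) 0 1 : ℤ) : ℝ) / q :=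
    fun δ => by
      rw [eq_div_iff hq]
      exact_mod_cast upper_div_mul δ
  have e : ((γ' : SL(2, ℤ)) : Matrix (Fin 2) (Fin 2) ℤ) =
      !![(γ : SL(2, ℤ)) 0 0 + X * (γ : SL(2, ℤ)) 1 0,
        (γ : SL(2, ℤ)) 0 1 + X * (γ : SL(2, ℤ)) 1 1 -
          ((γ : SL(2, ℤ)) 0 0 + X * (γ : SL(2, ℤ)) 1 0) * X;
        (γ : SL(2, ℤ)) 1 0, (γ : SL(2, ℤ)) 1 1 - (γ : SL(2, ℤ)) 1 0 * X] := by
    show ((ModularGroup.T ^ X * γ * (ModularGroup.T ^ X)⁻¹ : SL(2, ℤ)) :
      Matrix (Fin 2) (Fin 2) ℤ) = _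
    rw [← zpow_neg, Matrix.SpecialLinearGroup.coe_mul, Matrix.SpecialLinearGroup.coe_mul,
      ModularGroup.coe_T_zpow, ModularGroup.coe_T_zpow,
      Matrix.eta_fin_two ((γ : SL(2, ℤ)) : Matrix (Fin 2) (Fin 2) ℤ), Matrix.mul_fin_two,
      Matrix.mul_fin_two]
    ext i j
    fin_cases i <;> fin_cases j <;> simp <;> ring
  refine Units.ext ?_
  rw [Units.val_mul, Units.val_mul, GammaH.val_transl]
  ext i j
  simp only [Matrix.mul_apply, Fin.sum_univ_two, val_mapGL, coe_rescale, Matrix.of_apply,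
    Matrix.cons_val', Matrix.cons_val_zero, Matrix.cons_val_one, Matrix.cons_val_fin_one,
    Fin.isValue]
  fin_cases i <;> fin_cases j <;> simp [hdiv] <;> simp [e] <;> field_simp <;> ring

/-- The periods of the twist, on `Γ(q n)`. -/
theorem periodMap_translSum (w : ZMod q → ℂ) {f : CuspForm (Gamma1 (q * R)) 2}
    {F : CuspForm (Gamma0 (q * R * q)) 2} (hF : ⇑F = GammaH.translSum q w ⇑f) :
    (periodMap (q * R * q) F).comp (MonoidHom.toAdditive (rescale0 q R n)) =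
      ∑ x : ZMod q, w x • (sPlus (-x) • formClass n f) := by
  classical
  have : NeZero (q * R) := ⟨left_ne_zero_of_mul (NeZero.ne (q * R * q))⟩
  obtain ⟨P, hP⟩ := exists_prim f
  set X : ZMod q → ℤ := fun x => (n : ℤ) * (((n : ZMod q))⁻¹ * x).val with hX
  have hn : (n : ZMod q) ≠ 0 := fun h => by
    rw [ZMod.natCast_eq_zero_iff] at h
    exact (Fact.out : q.Prime).not_dvd_one
      ((Nat.coprime_iff_gcd_eq_one.mp hcop.out) ▸ Nat.dvd_gcd dvd_rfl h)
  have hXq : ∀ x, ((X x : ℤ) : ZMod q) = x := fun x => by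
    rw [hX]
    push_cast
    rw [ZMod.natCast_val, ZMod.cast_id', id, mul_inv_cancel_left₀ hn]
  have hfx : ∀ x : ZMod q, ⇑f ∣[(2 : ℤ)] transl q x.val = ⇑f ∣[(2 : ℤ)] transl q (X x) := by
    intro x
    have hd : (q : ℤ) ∣ (x.val : ℤ) - X x := by
      rw [← ZMod.intCast_zmod_eq_zero_iff_dvd, Int.cast_sub, hXq]
      simp
    obtain ⟨k, hk⟩ := hd
    have hT : ⇑f ∣[(2 : ℤ)] (mapGL ℝ (ModularGroup.T ^ k) : GL (Fin 2) ℝ) = ⇑f :=
      SlashInvariantFormClass.slash_action_eq f _ (Subgroup.mem_map_of_mem (mapGL ℝ) (by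
        rw [Gamma1_mem, ModularGroup.coe_T_zpow]
        simp))
    have e : transl q (x.val : ℤ) = mapGL ℝ (ModularGroup.T ^ k) * transl q (X x) := by
      refine Units.ext ?_
      have hq : (q : ℝ) ≠ 0 := Nat.cast_ne_zero.mpr (Fact.out : q.Prime).ne_zero
      have hk' : ((x.val : ℤ) : ℝ) - (X x : ℝ) = (q : ℝ) * k := by exact_mod_cast hk
      rw [Units.val_mul, GammaH.val_transl, GammaH.val_transl]
      ext i j
      simp only [Matrix.mul_apply, Fin.sum_univ_two, val_mapGL, ModularGroup.coe_T_zpow]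
      fin_cases i <;> fin_cases j <;> simp [-ZMod.natCast_val]
      field_simp
      push_cast at hk'
      linear_combination hk'
    rw [e, SlashAction.slash_mul, hT]
  have hFP : IsPrimitive ⇑F (fun τ => ∑ x : ZMod q, w x * P (transl q (X x) • τ)) := by
    intro τ
    rw [hF]
    have : GammaH.translSum q w ⇑f τ = ∑ x : ZMod q, w x * (⇑f ∣[(2 : ℤ)] transl q (X x)) τ := by
      simp [GammaH.translSum, hfx, -ZMod.natCast_val]
    rw [this]
    refine (HasDerivAt.fun_sum fun x _ =>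
      ((hP.comp_smul (GammaH.det_transl_pos q (X x))) τ).const_mul (w x)).congr_of_eventuallyEq ?_
    exact Filter.Eventually.of_forall fun z => rfl
  refine AddMonoidHom.ext fun γ => ?_
  obtain ⟨γ, rfl⟩ := Additive.ofMul.surjective γ
  show periodMap (q * R * q) F (Additive.ofMul (rescale0 q R n γ)) = _
  rw [Periods.periodMap_eq hFP _ I, AddMonoidHom.finsetSum_apply, ← Finset.sum_sub_distrib]
  refine Finset.sum_congr rfl fun x _ => ?_
  show w x * P (transl q (X x) • (rescale q n γ • I)) - _ =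
    w x * (sPlus (-x) • formClass n f) (Additive.ofMul γ)
  have hl : ModularGroup.T ^ X x ∈ Gamma n := by
    rw [Gamma_mem, ModularGroup.coe_T_zpow]
    simp [hX]
  have hmap : map (Int.castRingHom (ZMod q)) (ModularGroup.T ^ X x) = (sPlus (-x))⁻¹ := by
    rw [inv_eq_of_mul_eq_one_right (show sPlus (-x) * sPlus x = 1 by
      rw [sPlus_mul, neg_add_cancel, sPlus_zero])]
    refine Subtype.ext ?_
    show (ModularGroup.T ^ X x : SL(2, ℤ)).1.map (Int.castRingHom (ZMod q)) = _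
    rw [ModularGroup.coe_T_zpow, coe_sPlus]
    ext i j
    fin_cases i <;> fin_cases j <;> simp [hXq]
  rw [smul_eq_conjHomG hl hmap, conjHomG_apply, formClass_eq hP _ (transl q (X x) • I), mul_sub]
  congr 2
  show P (transl q (X x) • ((mapGL ℝ (rescale q n γ) : GL (Fin 2) ℝ) • I)) =
    P ((mapGL ℝ (rescale q n _) : GL (Fin 2) ℝ) • (transl q (X x) • I))
  rw [smul_smul, transl_mul_rescale, mul_smul]

/-- An eigenvector with nonzero twisted trace. -/
theorem exists_twist_eigen (χ : DirichletCharacter ℂ q) (hχ : χ ≠ 1) (hχ2 : χ ^ 2 ≠ 1)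
    {f : ℍ → ℂ} {a : ℕ → ℂ} (hf : IsNeb (q * R) (χ⁻¹ ^ 2) f) (ha : HasCoeff f a) (hf0 : f ≠ 0)
    {S : Finset ℕ} {c : ℕ → ℂ} (hS : ∀ ℓ : ℕ, ℓ.Prime → ℓ ∣ q * R * q → ℓ ∈ S)
    (heig : ∀ ℓ : ℕ, ℓ.Prime → ℓ ∉ S → ∀ k : ℕ,
      seqOp (nebWeight (χ⁻¹ ^ 2)) ℓ a k = χ⁻¹ (ℓ : ZMod q) * c ℓ * a k) :
    ∃ v ∈ heckePlane (q * R * q) S c,
      lowerTr (q := q) (twistOp (unitChar χ) (phiLin q R n ℂ v)) ≠ 0 := by
  classical
  have : NeZero (q * R) := ⟨left_ne_zero_of_mul (NeZero.ne (q * R * q))⟩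
  obtain ⟨F₁, hF1, hF1a, hF1e⟩ :=
    GammaH.exists_twist_prime (dvd_mul_right q R) dvd_rfl (dvd_mul_right q R) hf ha hχ
  have hneb : χ⁻¹ ^ 2 * DirichletCharacter.changeLevel (dvd_refl q) χ ^ 2 = 1 := by
    rw [DirichletCharacter.changeLevel_self, ← mul_pow, inv_mul_cancel, one_pow]
  rw [hneb] at hF1
  have hinv : ∀ γ ∈ Gamma0 (q * R * q), F₁ ∣[(2 : ℤ)] γ = F₁ := fun γ hγ => by
    have hu : IsUnit ((γ 1 1 : ℤ) : ZMod q) := by
      rw [← map_intCast (ZMod.castHom (dvd_mul_left q (q * R)) (ZMod q))]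
      exact (DeligneSerre.isUnit_lowerRight hγ).map _
    rw [hF1.neb γ hγ, MulChar.one_apply hu, one_smul]
  let F : CuspForm (Gamma0 (q * R * q)) 2 := DeligneSerre.mkCuspForm (Gamma0 (q * R * q)) 2 F₁
    hinv hF1.cusp.1 fun γ => by simpa [SlashAction.slash_one] using (hF1.cusp.slash_SL γ).2 1
  have hFa : ∀ k, qCoeff F k = χ (k : ZMod q) * a k := fun k =>
    (ModularFormClass.qExpansion_coeff_unique (f := F) one_pos
      (HeckeDuality.one_mem_periods _) (c := fun k => χ (k : ZMod q) * a k)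
      (fun τ => by simpa [smul_eq_mul] using (show HasSum _ (F τ) from hF1a τ)) k).symm
  have hFT : ∀ (ℓ : ℕ) (hℓ : ℓ.Prime) (hℓN : ¬ ℓ ∣ q * R * q), ℓ ∉ S →
      CuspForm.heckeTLin 2 hℓ hℓN F = c ℓ • F := by
    intro ℓ hℓ hℓN hℓS
    have hℓq : IsUnit (ℓ : ZMod q) := by
      rw [ZMod.isUnit_iff_coprime, hℓ.coprime_iff_not_dvd]
      exact fun h => hℓN (h.trans (dvd_mul_left q (q * R)))
    have hχℓ : χ (ℓ : ZMod q) * χ⁻¹ (ℓ : ZMod q) = 1 := by
      rw [← MulChar.mul_apply, mul_inv_cancel, MulChar.one_apply hℓq]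
    refine HeckeDuality.ext_coeff fun k => ?_
    rw [HeckeDuality.coeff_heckeTLin, HeckeDuality.coeff_smul]
    simp only [hFa]
    have h := heig ℓ hℓ hℓS k
    simp only [seqOp, nebWeight, MulChar.pow_apply' _ two_ne_zero] at h
    simp only [Nat.cast_mul, map_mul]
    by_cases hd : ℓ ∣ k
    · obtain ⟨m, rfl⟩ := hd
      rw [if_pos (dvd_mul_right ℓ m), Nat.mul_div_cancel_left m hℓ.pos] at h
      rw [if_pos (dvd_mul_right ℓ m), Nat.mul_div_cancel_left m hℓ.pos]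
      simp only [Nat.cast_mul, map_mul]
      rw [show ((2 : ℤ) - 1) = 1 from rfl, zpow_one]
      linear_combination (χ (ℓ : ZMod q) ^ 2 * χ (m : ZMod q)) * h +
        (χ (m : ZMod q) * (c ℓ * a (ℓ * m) * χ (ℓ : ZMod q) -
          ℓ * a m * (χ (ℓ : ZMod q) * χ⁻¹ (ℓ : ZMod q) + 1))) * hχℓ
    · rw [if_neg hd, add_zero] at h
      rw [if_neg hd]
      linear_combination (χ (k : ZMod q) * χ (ℓ : ZMod q)) * h +
        (χ (k : ZMod q) * c ℓ * a k) * hχℓ
  -- the form on `Γ₁(q R)`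
  let f₁ : CuspForm (Gamma1 (q * R)) 2 := DeligneSerre.mkCuspForm (Gamma1 (q * R)) 2 f
    (fun γ hγ => by
      obtain ⟨-, h11, h10⟩ := (Gamma1_mem _ γ).1 hγ
      have e : ((γ 1 1 : ℤ) : ZMod q) = 1 := by
        rw [← map_intCast (ZMod.castHom (dvd_mul_right q R) (ZMod q)), h11, map_one]
      rw [hf.neb γ (Gamma0_mem.2 h10), e, map_one, one_smul])
    hf.cusp.1 fun γ => by simpa [SlashAction.slash_one] using (hf.cusp.slash_SL γ).2 1
  have hf₁ : f₁ ≠ 0 := fun h => hf0 (congrArg DFunLike.coe h)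
  refine ⟨_, coord_periodMap_mem hS F hFT, ?_⟩
  set G := gaussSum χ⁻¹ ZMod.stdAddChar with hG
  have hG0 : G ≠ 0 := gaussSum_ne_zero_of_nontrivial (by simp [NeZero.ne q]) (inv_ne_one.2 hχ)
    (ZMod.isPrimitive_stdAddChar q)
  rw [phiLin_coord q R n (periodMap_mem_ellParHoms F),
    periodMap_translSum (fun x => G⁻¹ * χ⁻¹ x) (f := f₁) (F := F) hF1e]
  have hsum : ∑ x : ZMod q, (G⁻¹ * χ⁻¹ x) • (sPlus (-x) • formClass n f₁) =
      (G⁻¹ * χ⁻¹ (-1)) • ∑ u : (ZMod q)ˣ,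
        unitChar χ u⁻¹ • (sPlus (u : ZMod q) • formClass n f₁) := by
    rw [← Equiv.sum_comp (Equiv.neg (ZMod q)), Finset.smul_sum,
      ← Finset.add_sum_erase _ _ (Finset.mem_univ (0 : ZMod q))]
    simp only [Equiv.neg_apply, neg_zero, MulChar.map_zero, mul_zero, zero_smul, zero_add, neg_neg]
    refine (Finset.sum_bij (fun (u : (ZMod q)ˣ) _ => (u : ZMod q))
      (fun u _ => Finset.mem_erase.mpr ⟨u.ne_zero, Finset.mem_univ _⟩) (fun a _ b _ => Units.ext)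
      (fun v hv => ⟨Units.mk0 v (Finset.ne_of_mem_erase hv), Finset.mem_univ _, rfl⟩)
      (fun u _ => ?_)).symm
    rw [smul_smul, ← unitChar_inv, ← neg_one_mul ((u : ZMod q)), map_mul, mul_assoc]
  rw [hsum]
  have hlin : ∀ (k : ℂ) (x : Additive (Gamma (q * n)) →+ ℂ),
      lowerTr (q := q) (twistOp (unitChar χ) (k • x)) =
        k • lowerTr (q := q) (twistOp (unitChar χ) x) := fun k x => by
    simp only [twistOp, lowerTr, Finset.smul_sum, smul_comm _ k]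
  have hu1 : ∑ u : (ZMod q)ˣ, unitChar χ u = 0 := sum_hom_units_eq_zero _ fun h =>
    hχ (MulChar.ext fun u => by
      rw [MulChar.one_apply_coe, ← unitChar_apply, h, MonoidHom.one_apply])
  let μh : (ZMod q)ˣ →* ℂ := unitChar χ * unitChar χ
  have hu2 : ∑ u : (ZMod q)ˣ, μh u = 0 := sum_hom_units_eq_zero _ fun h =>
    hχ2 (MulChar.ext fun u => by
      rw [MulChar.one_apply_coe, MulChar.pow_apply_coe, sq, ← unitChar_apply]
      exact DFunLike.congr_fun h u)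
  have hf₁N : IsNeb (q * R) (χ⁻¹ ^ 2) ⇑f₁ := hf
  rw [hlin, lowerTr_twistOp_twistOp (unitChar χ) hu1 (μ := μh) hu2
    (sMinus_smul_formClass (n := n) hf₁N) fun u => by
      rw [sDiag_smul_formClass (n := n) hf₁N, MulChar.pow_apply_coe, unitChar_inv, inv_inv, sq]
      rfl,
    ← Int.cast_smul_eq_zsmul ℂ, smul_smul, smul_smul]
  refine smul_ne_zero (mul_ne_zero (mul_ne_zero (mul_ne_zero (inv_ne_zero hG0) ?_) ?_) ?_)
    (formClass_ne_zero hf₁)
  · exact ((isUnit_one.neg).map χ⁻¹).ne_zero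
  · exact ((isUnit_one.neg).map (unitChar χ)).ne_zero
  · have := (Fact.out : q.Prime).two_le
    exact Int.cast_ne_zero.mpr (mul_ne_zero (by omega) (by omega))

end Fermat.Agent.RT.InertiaTW
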