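import Fermat.Agent.RT.InertiaTW.TwistVanish
import Fermat.Agent.RT.InertiaTW.TwistPeriod
import Fermat.Agent.RT.InertiaTW.GalPlane
import Fermat.Agent.RT.InertiaTW.Inertia
import Fermat.Agent.RT.InertiaTW.Statement
import Fermat.Agent.GaloisReps.PadicHom
import Fermat.Agent.Arith.TraceSpan
import Fermat.Agent.Arith.Frobenius
import Fermat.Agent.Deform.Matrix

/-!
# The trace of inertia at a prime of twisted level

The eigencharacter of inertia at `q` is `χ` or `χ⁻¹`: otherwise the twisted trace would kill the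
whole plane of the twist, which contains the periods of the twisted form.
-/

set_option autoImplicit false

noncomputable section

open IsLocalRing Module UpperHalfPlane ModularFormClass
open scoped Pointwise

namespace Fermat.Agent.RT.InertiaTW

open Fermat.Agent.Arith
open GaloisReps (CongruenceProperty)

theorem congruenceProperty_of_eq {N N' p : ℕ} [NeZero N] [NeZero N'] [Fact p.Prime] (e : N = N')
    (h : CongruenceProperty N p) : CongruenceProperty N' p := by
  subst e
  exact h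

/-- The structure map from `ℤ_[p]` to a domain of characteristic zero is injective. -/
theorem padicHom_injective {p : ℕ} [Fact p.Prime] {O : Type*} [CommRing O] [IsDomain O]
    [CharZero O] (f : ℤ_[p] →+* O) : Function.Injective f := by
  rw [injective_iff_map_eq_zero]
  intro x hx
  by_contra h
  rw [PadicInt.unitCoeff_spec h, map_mul, map_pow, map_natCast, mul_eq_zero] at hx
  rcases hx with hx | hx
  · exact ((Units.isUnit _).map f).ne_zero hx
  · exact pow_ne_zero _ (Nat.cast_ne_zero.mpr (Fact.out : p.Prime).ne_zero) hx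

theorem trace_eq_of_eigen {X : Matrix (Fin 2) (Fin 2) ℂ} (hd : X.det = 1) {v : Fin 2 → ℂ}
    (hv : v ≠ 0) {e : ℂ} (he : e ≠ 0) (h : X.mulVec v = e • v) : X.trace = e + e⁻¹ := by
  have h2 : X * X = X.trace • X - (1 : Matrix (Fin 2) (Fin 2) ℂ) := by
    rw [Matrix.det_fin_two] at hd
    ext i j
    fin_cases i <;> fin_cases j <;>
      simp [Matrix.mul_apply, Fin.sum_univ_two, Matrix.trace_fin_two] <;>
      first
        | linear_combination -hd
        | ring
  have h3 := congrArg (fun M => M.mulVec v) h2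
  simp only [← Matrix.mulVec_mulVec, h, Matrix.mulVec_smul, Matrix.sub_mulVec, Matrix.smul_mulVec,
    Matrix.one_mulVec] at h3
  have h4 : (e * e - X.trace * e + 1) • v = 0 := by
    rw [add_smul, sub_smul, mul_smul, mul_smul, one_smul, h3]
    abel
  have h5 := (smul_eq_zero.mp h4).resolve_right hv
  field_simp
  linear_combination -h5

/-- A nontrivial character of `p`-power order of `(ℤ/q)ˣ` forces `q ≡ 1 (mod p)`. -/
theorem dvd_sub_one_of_char {p q : ℕ} [Fact p.Prime] [Fact q.Prime]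
    {χ : DirichletCharacter ℂ q} (hχ : χ ≠ 1) {k : ℕ} (hk : χ ^ p ^ k = 1) : p ∣ q - 1 := by
  obtain ⟨u, hu⟩ : ∃ u : (ZMod q)ˣ, χ (u : ZMod q) ≠ 1 := by
    by_contra h
    push Not at h
    exact hχ (MulChar.ext fun u => by rw [h u, MulChar.one_apply_coe])
  have h1 : orderOf (χ (u : ZMod q)) ∣ p ^ k := orderOf_dvd_of_pow_eq_one (by
    rw [← MulChar.pow_apply_coe, hk, MulChar.one_apply_coe])
  have h2 : orderOf (χ (u : ZMod q)) ∣ q - 1 := orderOf_dvd_of_pow_eq_one (by
    rw [← map_pow, ← Units.val_pow_eq_pow_val, ZMod.units_pow_card_sub_one_eq_one, Units.val_one,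
      map_one])
  obtain ⟨i, -, hi⟩ := (Nat.dvd_prime_pow (Fact.out : p.Prime)).mp h1
  have hi0 : i ≠ 0 := fun h => hu (orderOf_eq_one_iff.mp (by rw [hi, h, pow_zero]))
  exact ((dvd_pow_self p hi0).trans (hi ▸ dvd_refl _)).trans h2

/-- **Inertia at a prime of twisted level.** -/
theorem traceInertia (p q R M : ℕ) [Fact p.Prime] [Fact q.Prime] [NeZero R] [NeZero M]
    (g : CuspForm (CongruenceSubgroup.Gamma0 M) 2) : TraceInertia p q R M g := by
  classical
  intro hp2 hpq hqR _ _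
  intro hES χ hχ hχp f a hf ha hf0 S hS heig O _ _ _ _ _ _ hpO j hj ρ habs hfrob A hA hinert σ hσ u
    hσu
  have hq : q.Prime := Fact.out
  have hp : p.Prime := Fact.out
  obtain ⟨k, hk⟩ := hχp
  have hpq1 : p ∣ q - 1 := dvd_sub_one_of_char hχ hk
  have hχ2 : χ ^ 2 ≠ 1 := fun h => hχ (by
    have hg : Nat.gcd 2 (p ^ k) = 1 :=
      Nat.Coprime.pow_right k ((Nat.coprime_primes Nat.prime_two hp).mpr hp2.symm)
    simpa [hg] using (pow_gcd_eq_one (a := χ)).mpr ⟨h, hk⟩)
  -- the auxiliary level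
  set L := if q = 7 then 9 else 7 with hLdef
  have hL : L = 7 ∨ L = 9 := by by_cases h : q = 7 <;> simp [hLdef, h]
  have hqL : ¬ q ∣ L := by
    by_cases h : q = 7
    · simp [hLdef, h]
    · simp only [hLdef, if_neg h]
      exact fun hd => h ((Nat.prime_dvd_prime_iff_eq hq (by norm_num)).mp hd)
  have hL0 : L ≠ 0 := by rcases hL with h | h <;> omega
  set n := R * L with hn
  have : NeZero n := ⟨mul_ne_zero (NeZero.ne R) hL0⟩
  have : NeZero (q * n) := ⟨mul_ne_zero hq.ne_zero (NeZero.ne n)⟩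
  have : NeZero (q * R * q) := ⟨mul_ne_zero (mul_ne_zero hq.ne_zero (NeZero.ne R)) hq.ne_zero⟩
  have : Fact (q.Coprime n) := ⟨hq.coprime_iff_not_dvd.mpr fun h =>
    (hq.dvd_mul.mp h).elim hqR hqL⟩
  have : Fact (R ∣ n) := ⟨dvd_mul_right R L⟩
  have hES' : CongruenceProperty (q * R * q) p :=
    congruenceProperty_of_eq (N := q ^ 2 * R) (N' := q * R * q) (by ring) hES
  -- the representation in matrices
  let b := Module.finBasisOfFinrankEq O ρ.V ρ.finrank_eq
  let ρm : GQ →* Matrix (Fin 2) (Fin 2) O := Deform.matOf ρ b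
  have htr : ∀ τ, (ρm τ).trace = ρ.trace τ := fun τ =>
    (LinearMap.trace_eq_matrix_trace O b (ρ.ρ τ)).symm
  have hdet : ∀ τ, (ρm τ).det = LinearMap.det (ρ.ρ τ) := fun τ => LinearMap.det_toMatrix b (ρ.ρ τ)
  have hcont : ∀ m : ℕ, ∃ K : IntermediateField ℚ QBar, FiniteDimensional ℚ K ∧
      ∀ τ : GQ, (∀ x ∈ K, τ x = x) → ∀ i k, (ρm τ - 1) i k ∈ maximalIdeal O ^ m := fun m => by
    obtain ⟨K, hK, h1⟩ := Deform.isCont_matOf ρ b m
    exact ⟨K, hK, fun τ hτ i k => h1 τ hτ i k⟩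
  letI : Algebra O ℂ := j.toAlgebra
  obtain ⟨v2, θ, hv2, hθ⟩ := exists_inertia_eigen (K := ℂ) hj hA hq hp hp2 hpq1 hpO ρm hcont
    (fun τ hτ => (hdet τ).trans (hinert τ hτ).1) (fun τ hτ => by rw [htr]; exact (hinert τ hτ).2)
  -- the two possibilities
  suffices h : θ = unitChar χ ∨ θ * unitChar χ = 1 by
    have he : θ u ≠ 0 := ((Group.isUnit u).map θ).ne_zero
    have hX : ((ρm σ).map j).det = 1 := by
      have e := RingHom.map_det j (ρm σ)
      rw [hdet, (hinert σ hσ).1, map_one] at e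
      exact e.symm
    have ht := trace_eq_of_eigen hX hv2 he (hθ σ hσ u hσu)
    have e : ((ρm σ).map j).trace = j (ρ.trace σ) := by
      rw [← htr]
      simp [Matrix.trace_fin_two]
    rw [← e, ht]
    have hi : χ⁻¹ (u : ZMod q) = (χ (u : ZMod q))⁻¹ := MulChar.inv_apply_eq_inv' χ _
    rcases h with h | h
    · rw [h, unitChar_apply, hi]
    · have h' : θ u * χ (u : ZMod q) = 1 := DFunLike.congr_fun h u
      rw [eq_inv_of_mul_eq_one_left h', hi, inv_inv, add_comm]
  by_contra hcon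
  rw [not_or] at hcon
  obtain ⟨ι₀⟩ := GaloisReps.exists_padicHom (p := p) O hpO
  have hι : Function.Injective (j.comp ι₀) := hj.comp (padicHom_injective ι₀)
  have hspan : Submodule.span ℂ (Set.range fun τ => (ρm τ).map j) = ⊤ := by
    rw [show (Set.range fun τ => (ρm τ).map j) =
      (fun X : Matrix (Fin 2) (Fin 2) O => X.map j) '' Set.range ρm from Set.range_comp (fun X : Matrix (Fin 2) (Fin 2) O => X.map j) (⇑ρm)]
    exact span_map_eq_top j (Arith.span_matOf_eq_top ρ habs b)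
  obtain ⟨Φ, hΦ⟩ := exists_planeAction hES' ι₀ hpO ρm hcont j hj S (fun ℓ => qCoeff g ℓ)
    (fun ℓ hℓ hℓS B hB φ hφ => by
      rw [htr, hdet]
      exact hfrob ℓ hℓ hℓS B hB φ hφ) hspan
  have hSN : ∀ ℓ : ℕ, ℓ.Prime → ℓ ∣ q * R * q → ℓ ∈ S := fun ℓ hℓ h => hS ℓ hℓ
    ((hℓ.dvd_mul.mp h).elim (fun h => h.trans (dvd_mul_right _ p))
      fun h => h.trans (dvd_mul_of_dvd_left (dvd_mul_right q R) p))
  obtain ⟨v, hvW, hvne⟩ := exists_twist_eigen (R := R) (n := n) χ hχ hχ2 hf ha hf0 hSN heig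
  let Tl : heckePlane (q * R * q) S (fun ℓ => qCoeff g ℓ) →ₗ[ℂ]
      (Additive (CongruenceSubgroup.Gamma (q * n)) →+ ℂ) :=
    { toFun := fun x => lowerTr (q := q) (twistOp (unitChar χ) (phiLin q R n ℂ x.1))
      map_add' := fun x y => by
        simp only [Submodule.coe_add, map_add, twistOp, lowerTr, smul_add, Finset.sum_add_distrib]
      map_smul' := fun c x => by
        rw [RingHom.id_apply, Submodule.coe_smul, map_smul, twistOp_smul, lowerTr_smul] }
  let Φw : Matrix (Fin 2) (Fin 2) ℂ →ₗ[ℂ] heckePlane (q * R * q) S (fun ℓ => qCoeff g ℓ) :=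
    { toFun := fun X => Φ X ⟨v, hvW⟩
      map_add' := fun X Y => by rw [map_add, LinearMap.add_apply]
      map_smul' := fun c X => by rw [map_smul, LinearMap.smul_apply, RingHom.id_apply] }
  let Λ := Tl.comp Φw
  let ρC : GQ →* Matrix (Fin 2) (Fin 2) ℂ := j.mapMatrix.toMonoidHom.comp ρm
  have hkill : ∀ (s : GQ) (φ : Fin 2 → ℂ), Λ (ρC s * Matrix.vecMulVec v2 φ) = 0 := by
    intro s φ
    refine twist_vanish (hA := (liesOverPrime_smul_iff (g := s)).mpr hA) hL (dvd_mul_left L R) hpq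
      (j.comp ι₀) hι (unitChar χ) θ hcon.1 hcon.2 ?_
    intro τ hτ c hc
    have hin : s⁻¹ * τ * s ∈ A.inertiaSubgroupIn ℚ :=
      mem_inertia_smul_iff.mp (show s * (s⁻¹ * τ * s) * s⁻¹ ∈ (s • A).inertiaSubgroupIn ℚ by
        group; exact hτ)
    have hcc : ∀ μ : QBar, μ ^ q = 1 → (s⁻¹ * τ * s) μ = μ ^ (c : ZMod q).val := fun μ hμ => by
      rw [AlgEquiv.mul_apply, AlgEquiv.mul_apply, hc _ (by rw [← map_pow, hμ, map_one]), map_pow,
        ← AlgEquiv.mul_apply, inv_mul_cancel, AlgEquiv.one_apply]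
    have hX : ρC τ * (ρC s * Matrix.vecMulVec v2 φ) = θ c • (ρC s * Matrix.vecMulVec v2 φ) := by
      rw [← mul_assoc, ← map_mul, show τ * s = s * (s⁻¹ * τ * s) by group, map_mul, mul_assoc,
        Matrix.mul_vecMulVec, show (ρC (s⁻¹ * τ * s)).mulVec v2 = θ c • v2 from hθ _ hin c hcc,
        Matrix.smul_vecMulVec, mul_smul_comm]
    have e := hΦ τ (Φw (ρC s * Matrix.vecMulVec v2 φ))
    refine e.symm.trans ?_
    show ((Φ (ρC τ) * Φ (ρC s * Matrix.vecMulVec v2 φ)) ⟨v, hvW⟩).1 = _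
    rw [← map_mul, hX, map_smul]
    rfl
  have hall : ∀ (Y : Matrix (Fin 2) (Fin 2) ℂ) (φ : Fin 2 → ℂ),
      Λ (Y * Matrix.vecMulVec v2 φ) = 0 := fun Y φ => by
    have hY : Y ∈ Submodule.span ℂ (Set.range fun τ => (ρm τ).map j) := hspan ▸ Submodule.mem_top
    induction hY using Submodule.span_induction with
    | mem X hX => obtain ⟨s, rfl⟩ := hX; exact hkill s φ
    | zero => rw [zero_mul, map_zero]
    | add X Z _ _ hX hZ => rw [add_mul, map_add, hX, hZ, add_zero]
    | smul c X _ hX => rw [smul_mul_assoc, map_smul, hX, smul_zero]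
  obtain ⟨i₀, hi₀⟩ : ∃ i, v2 i ≠ 0 := by
    by_contra h
    push Not at h
    exact hv2 (funext h)
  have h1 : (1 : Matrix (Fin 2) (Fin 2) ℂ) = ∑ i, Matrix.single i i₀ (v2 i₀)⁻¹ *
      Matrix.vecMulVec v2 (Pi.single i 1) := by
    ext i k
    rw [Matrix.sum_apply]
    simp [Matrix.mul_apply, Matrix.vecMulVec_apply, Matrix.single_apply, Matrix.one_apply,
      Pi.single_apply, eq_comm, ite_and, hi₀]
  have hzero : Λ 1 = 0 := by rw [h1, map_sum]; exact Finset.sum_eq_zero fun i _ => hall _ _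
  exact hvne (by
    have e : Φw 1 = ⟨v, hvW⟩ := by
      show Φ 1 _ = _
      rw [map_one]
      rfl
    have := hzero
    rw [LinearMap.comp_apply, e] at this
    exact this)

end Fermat.Agent.RT.InertiaTW
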