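import Fermat.Agent.RT.InertiaTW.LevelAction
import Fermat.Agent.RT.InertiaTW.GroupSum
import Fermat.Agent.RT.GammaH.NebHecke

/-!
# The class on `Γ(q n)` of a form with nebentypus

The periods of a weight two form of nebentypus `ε` at level `q R`, rescaled to `Γ(q n)`, are fixed
by the lower unipotent matrices, are eigenvectors of `diag(u⁻¹, u)`, and are nonzero.
-/

set_option autoImplicit false

noncomputable section

open CongruenceSubgroup UpperHalfPlane Matrix.SpecialLinearGroup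
open scoped MatrixGroups ModularForm

namespace Fermat.Agent.RT.InertiaTW

open Fermat.Agent.Periods (IsPrimitive)
open Fermat.Agent.Periods.Congruence (per)
open Fermat.Agent.RT.GammaH (IsNeb)

variable {q R n : ℕ} [Fact q.Prime] [NeZero (q * n)] [hcop : Fact (q.Coprime n)]
  [hR : Fact (R ∣ n)]

/-- Conjugation by a lift, after rescaling. -/
theorem exists_rescale_conj {l : SL(2, ℤ)} (hl : l ∈ Gamma n) (h01 : (q : ℤ) ∣ l 0 1) :
    ∃ c : SL(2, ℤ), c 0 0 = l 0 0 ∧ c 1 1 = l 1 1 ∧ c 1 0 = l 1 0 * q ∧ c ∈ Gamma0 (q * R) ∧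
      ∀ γ γ' : Gamma (q * n), (γ' : SL(2, ℤ)) = l * γ * l⁻¹ →
        rescale q n γ' = c * rescale q n γ * c⁻¹ := by
  have hq : (q : ℤ) ≠ 0 := Int.natCast_ne_zero.mpr (Fact.out : q.Prime).ne_zero
  obtain ⟨β, hβ⟩ := h01
  have hdet := l.det_coe
  rw [Matrix.det_fin_two, hβ] at hdet
  let c : SL(2, ℤ) := ⟨!![l 0 0, β; l 1 0 * (q : ℤ), l 1 1], by
    rw [Matrix.det_fin_two_of]; linear_combination hdet⟩
  have hc : c ∈ Gamma0 (q * R) := by
    rw [Gamma0_mem, ZMod.intCast_zmod_eq_zero_iff_dvd]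
    show ((q * R : ℕ) : ℤ) ∣ l 1 0 * (q : ℤ)
    rw [Nat.cast_mul, mul_comm]
    exact mul_dvd_mul_right ((Int.natCast_dvd_natCast.mpr hR.out).trans
      (entry_mem_Gamma hl).2.2.1) _
  refine ⟨c, rfl, rfl, rfl, hc, fun γ γ' hγ' => eq_mul_inv_of_mul_eq ?_⟩
  let D : Matrix (Fin 2) (Fin 2) ℤ := !![1, 0; 0, (q : ℤ)]
  have hD : ∀ δ : Gamma (q * n), (rescale q n δ : Matrix (Fin 2) (Fin 2) ℤ) * D =
      D * ((δ : SL(2, ℤ)) : Matrix (Fin 2) (Fin 2) ℤ) := by
    intro δ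
    rw [coe_rescale, Matrix.eta_fin_two ((δ : SL(2, ℤ)) : Matrix (Fin 2) (Fin 2) ℤ),
      Matrix.mul_fin_two, Matrix.mul_fin_two]
    ext i j
    fin_cases i <;> fin_cases j <;> simp [upper_div_mul δ, mul_comm]
  have hcD : (c : Matrix (Fin 2) (Fin 2) ℤ) * D = D * (l : Matrix (Fin 2) (Fin 2) ℤ) := by
    rw [Matrix.eta_fin_two (l : Matrix (Fin 2) (Fin 2) ℤ), hβ]
    show !![_, _; _, _] * _ = _
    rw [Matrix.mul_fin_two, Matrix.mul_fin_two]
    ext i j
    fin_cases i <;> fin_cases j <;> simp [mul_comm]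
  have hl' : (γ' : SL(2, ℤ)) * l = l * (γ : SL(2, ℤ)) := by rw [hγ', inv_mul_cancel_right]
  have e : ((rescale q n γ' * c : SL(2, ℤ)) : Matrix (Fin 2) (Fin 2) ℤ) * D =
      ((c * rescale q n γ : SL(2, ℤ)) : Matrix (Fin 2) (Fin 2) ℤ) * D := by
    rw [Matrix.SpecialLinearGroup.coe_mul, Matrix.SpecialLinearGroup.coe_mul, mul_assoc, hcD,
      ← mul_assoc, hD γ', mul_assoc, ← Matrix.SpecialLinearGroup.coe_mul, hl',
      Matrix.SpecialLinearGroup.coe_mul, ← mul_assoc, ← hcD, mul_assoc, ← hD γ, ← mul_assoc]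
  refine Subtype.ext (Matrix.ext fun i j => ?_)
  have e0 := congrFun (congrFun e i) j
  rw [Matrix.mul_apply, Matrix.mul_apply, Fin.sum_univ_two, Fin.sum_univ_two] at e0
  fin_cases j <;> simpa [D, hq, (Fact.out : q.Prime).ne_zero] using e0

variable (q R n) in
/-- The rescaling into `Γ₁(q R)`. -/
def rescale1 : Gamma (q * n) →* Gamma1 (q * R) :=
  (rescale q n).codRestrict _ (rescale_mem_Gamma1 hR.out)

variable (n) in
/-- The class of a form. -/
def formClass (f : CuspForm (Gamma1 (q * R)) 2) : Additive (Gamma (q * n)) →+ ℂ :=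
  (per f).comp (MonoidHom.toAdditive (rescale1 q R n))

omit hcop in
theorem formClass_eq {f : CuspForm (Gamma1 (q * R)) 2} {P : ℍ → ℂ} (hP : IsPrimitive ⇑f P)
    (γ : Gamma (q * n)) (z : ℍ) :
    formClass n f (Additive.ofMul γ) = P (rescale q n γ • z) - P z :=
  Periods.Congruence.per_eq hP (rescale1 q R n γ) z

variable [NeZero (q * R)]

omit [Fact q.Prime] [NeZero (q * n)] hcop hR in
theorem exists_prim (f : CuspForm (Gamma1 (q * R)) 2) : ∃ P : ℍ → ℂ, IsPrimitive ⇑f P := by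
  obtain ⟨P, hP, -⟩ := Periods.Congruence.exists_primitive (M := q * R) (fun g hg =>
    ((Gamma1_mem _ g).mpr ⟨(Gamma_mem.mp hg).1, (Gamma_mem.mp hg).2.2.2,
      (Gamma_mem.mp hg).2.2.1⟩)) f
  exact ⟨P, hP⟩

/-- Conjugation by a lift multiplies the class by the nebentypus. -/
theorem smul_formClass {ε : DirichletCharacter ℂ q} {f : CuspForm (Gamma1 (q * R)) 2}
    (hf : IsNeb (q * R) ε ⇑f) (s : SL(2, ZMod q))
    (hs : ((s⁻¹ : SL(2, ZMod q)) : Matrix (Fin 2) (Fin 2) (ZMod q)) 0 1 = 0) :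
    s • formClass n f =
      ε (((s⁻¹ : SL(2, ZMod q)) : Matrix (Fin 2) (Fin 2) (ZMod q)) 1 1) • formClass n f := by
  obtain ⟨P, hP⟩ := exists_prim f
  set l := liftSL (n := n) s⁻¹
  have hent : ∀ i j, ((l i j : ℤ) : ZMod q) =
      ((s⁻¹ : SL(2, ZMod q)) : Matrix (Fin 2) (Fin 2) (ZMod q)) i j := fun i j => by
    rw [← map_liftSL (n := n) s⁻¹]; rfl
  obtain ⟨c, -, hc11, -, hc, hconj⟩ := exists_rescale_conj (R := R) (liftSL_mem (n := n) s⁻¹)
    ((ZMod.intCast_zmod_eq_zero_iff_dvd _ _).mp ((hent 0 1).trans hs))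
  set a := ε (((s⁻¹ : SL(2, ZMod q)) : Matrix (Fin 2) (Fin 2) (ZMod q)) 1 1) with ha
  have hfc : ⇑f ∣[(2 : ℤ)] c = a • ⇑f := by rw [hf.neb c hc, hc11, hent]
  refine AddMonoidHom.ext fun γ => ?_
  obtain ⟨γ, rfl⟩ := Additive.ofMul.surjective γ
  have h1 := hP.comp_SL c
  rw [hfc] at h1
  have h2 := IsPrimitive.sub_eq h1 (hP.const_smul a) (rescale q n γ • I) I
  rw [smul_apply_eq, formClass_eq hP _ (c • I), hconj γ _ rfl, mul_smul, mul_smul, inv_smul_smul]
  show _ = a * formClass n f (Additive.ofMul γ)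
  rw [formClass_eq hP γ I]
  simp only [Pi.smul_apply, smul_eq_mul] at h2
  linear_combination h2

theorem sMinus_smul_formClass {ε : DirichletCharacter ℂ q} {f : CuspForm (Gamma1 (q * R)) 2}
    (hf : IsNeb (q * R) ε ⇑f) (s : ZMod q) : sMinus s • formClass n f = formClass n f := by
  have e : ((sMinus s)⁻¹ : SL(2, ZMod q)) = sMinus (-s) :=
    inv_eq_of_mul_eq_one_right (by rw [sMinus_mul, add_neg_cancel, sMinus_zero])
  rw [smul_formClass hf _ (by rw [e, coe_sMinus]; rfl), e, coe_sMinus]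
  simp

theorem sDiag_smul_formClass {ε : DirichletCharacter ℂ q} {f : CuspForm (Gamma1 (q * R)) 2}
    (hf : IsNeb (q * R) ε ⇑f) (u : (ZMod q)ˣ) :
    sDiag u • formClass n f = ε ((u⁻¹ : (ZMod q)ˣ) : ZMod q) • formClass n f := by
  rw [smul_formClass hf _ (by simp [Matrix.SpecialLinearGroup.coe_inv, coe_sDiag,
    Matrix.adjugate_fin_two, -ZMod.inv_coe_unit])]
  simp [Matrix.SpecialLinearGroup.coe_inv, coe_sDiag, Matrix.adjugate_fin_two, -ZMod.inv_coe_unit]

omit hcop in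
/-- The class of a nonzero form is nonzero. -/
theorem formClass_ne_zero {f : CuspForm (Gamma1 (q * R)) 2} (hf : f ≠ 0) : formClass n f ≠ 0 := by
  intro h
  refine hf (Periods.Congruence.per_injective (M := q * R) (fun g hg => ((Gamma1_mem _ g).mpr
    ⟨(Gamma_mem.mp hg).1, (Gamma_mem.mp hg).2.2.2, (Gamma_mem.mp hg).2.2.1⟩)) ?_)
  have : NeZero (q * q * n) :=
    ⟨mul_ne_zero (mul_ne_zero (Fact.out : q.Prime).ne_zero (Fact.out : q.Prime).ne_zero)
      (right_ne_zero_of_mul (NeZero.ne (q * n)))⟩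
  have key : ∀ g : Gamma1 (q * R), (g : SL(2, ℤ)) ∈ Gamma (q * q * n) →
      per f (Additive.ofMul g) = 0 := by
    intro g hg
    obtain ⟨h1, h2, h3, h4⟩ := entry_mem_Gamma hg
    obtain ⟨c, hc⟩ := h3
    have hd : ((q * n : ℕ) : ℤ) ∣ ((q * q * n : ℕ) : ℤ) := ⟨(q : ℤ), by push_cast; ring⟩
    have hdet := (g : SL(2, ℤ)).det_coe
    rw [Matrix.det_fin_two] at hdet
    let δ : SL(2, ℤ) := ⟨!![(g : SL(2, ℤ)) 0 0, (g : SL(2, ℤ)) 0 1 * q;
        ((q * n : ℕ) : ℤ) * c, (g : SL(2, ℤ)) 1 1], by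
      rw [Matrix.det_fin_two_of]
      rw [hc] at hdet
      push_cast at hdet ⊢
      linear_combination hdet⟩
    have hδ : δ ∈ Gamma (q * n) := by
      refine Gamma_mem.mpr ⟨?_, ?_, ?_, ?_⟩
      · have := (ZMod.intCast_zmod_eq_zero_iff_dvd _ _).mpr (hd.trans h1)
        simpa [δ, sub_eq_zero] using this
      · exact (ZMod.intCast_zmod_eq_zero_iff_dvd _ _).mpr ((hd.trans h2).mul_right _)
      · exact (ZMod.intCast_zmod_eq_zero_iff_dvd _ _).mpr (dvd_mul_right _ _)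
      · have := (ZMod.intCast_zmod_eq_zero_iff_dvd _ _).mpr (hd.trans h4)
        simpa [δ, sub_eq_zero] using this
    have e : rescale1 q R n ⟨δ, hδ⟩ = g := by
      refine Subtype.ext (Subtype.ext ?_)
      show (rescale q n ⟨δ, hδ⟩ : Matrix (Fin 2) (Fin 2) ℤ) = _
      rw [coe_rescale, Matrix.eta_fin_two ((g : SL(2, ℤ)) : Matrix (Fin 2) (Fin 2) ℤ), hc]
      have hq : (q : ℤ) ≠ 0 := Int.natCast_ne_zero.mpr (Fact.out : q.Prime).ne_zero
      show !![_, _; _, _] = _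
      simp only [δ, Matrix.of_apply, Matrix.cons_val', Matrix.cons_val_zero, Matrix.cons_val_one,
        Matrix.cons_val_fin_one, Fin.isValue, Int.mul_ediv_cancel _ hq]
      congr 1
      push_cast
      ext i j
      fin_cases i <;> fin_cases j <;> simp
      ring
    have := DFunLike.congr_fun h (Additive.ofMul ⟨δ, hδ⟩)
    rw [← e]
    exact this
  refine AddMonoidHom.ext fun x => ?_
  obtain ⟨g, rfl⟩ := Additive.ofMul.surjective x
  have : (Gamma (q * q * n)).Normal := Gamma_normal _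
  have hk := key (g ^ (Gamma (q * q * n)).index) (by
    rw [SubmonoidClass.coe_pow]; exact Subgroup.pow_index_mem _ _)
  rw [ofMul_pow, map_nsmul, nsmul_eq_mul] at hk
  exact (mul_eq_zero.mp hk).resolve_left (Nat.cast_ne_zero.mpr Subgroup.FiniteIndex.index_ne_zero)

end Fermat.Agent.RT.InertiaTW
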