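import Fermat.Agent.RT.InertiaTW.Identity
import Mathlib.Algebra.BigOperators.GroupWithZero.Action

/-!
# A combination on the diagonal torus annihilated by the sums over the tori

The combination `((q-1) - e₁) ((q-1) - e₂)`, for `e₁`, `e₂` the sums over the two one parameter
tori, is killed by the torus operator and multiplies a character nontrivial on both tori by
`(q-1)²`.
-/

set_option autoImplicit false

noncomputable section

namespace Fermat.Agent.RT.InertiaTW

open Matrix Carayol

variable {q : ℕ} [Fact q.Prime] {M N : Type*} [AddCommGroup M] [AddCommGroup N]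

/-- The combination, on functions on the torus. -/
def hollow (Y : (ZMod q)ˣ → (ZMod q)ˣ → M) : M :=
  (((q : ℤ) - 1) * ((q : ℤ) - 1)) • Y 1 1 - ((q : ℤ) - 1) • ∑ a : (ZMod q)ˣ, Y a 1
    - ((q : ℤ) - 1) • ∑ d : (ZMod q)ˣ, Y 1 d + ∑ a : (ZMod q)ˣ, ∑ d : (ZMod q)ˣ, Y a d

theorem map_hollow {G : Type*} [FunLike G M N] [AddMonoidHomClass G M N] (f : G)
    (Y : (ZMod q)ˣ → (ZMod q)ˣ → M) : f (hollow Y) = hollow fun a d => f (Y a d) := by
  simp [hollow, map_sum, map_zsmul]

/-- Commutation with a sum. -/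
theorem hollow_sum {ι : Type*} (s : Finset ι) (Y : ι → (ZMod q)ˣ → (ZMod q)ˣ → M) :
    hollow (fun a d => ∑ i ∈ s, Y i a d) = ∑ i ∈ s, hollow (Y i) := by
  induction s using Finset.cons_induction with
  | empty => simp [hollow]
  | cons i s hi ih =>
    rw [Finset.sum_cons, ← ih]
    simp only [hollow, Finset.sum_cons, Finset.sum_add_distrib, smul_add]
    abel

theorem hollow_smul {S : Type*} [Semiring S] [Module S M] (c : S)
    (Y : (ZMod q)ˣ → (ZMod q)ˣ → M) : hollow (fun a d => c • Y a d) = c • hollow Y :=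
  (map_hollow (DistribSMul.toAddMonoidHom M c) Y).symm

theorem coe_diagElt_mul (a d a' d' : (ZMod q)ˣ) :
    (diagElt a d : GL (Fin 2) (ZMod q)) * diagElt a' d' = diagElt (a * a') (d * d') := by
  refine Units.ext ?_
  simp [coe_diagElt]

/-- The torus operator kills the combination of the translates. -/
theorem torOp_hollow (G : GL (Fin 2) (ZMod q) → M) :
    torOp (fun h => hollow fun a d => G (h * diagElt a d)) = 0 := by
  set Y : (ZMod q)ˣ → (ZMod q)ˣ → M := fun a d => G (diagElt a d) with hY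
  have e : ∀ a d : (ZMod q)ˣ,
      (hollow fun a' d' => G (diagElt a d * diagElt a' d')) =
        (((q : ℤ) - 1) * ((q : ℤ) - 1)) • Y a d - ((q : ℤ) - 1) • ∑ a', Y a' d
          - ((q : ℤ) - 1) • ∑ d', Y a d' + ∑ a', ∑ d', Y a' d' := fun a d => by
    have h1 : ∀ z, (∑ a', Y (a * a') z) = ∑ a', Y a' z := fun z =>
      Fintype.sum_equiv (Equiv.mulLeft a) _ _ fun _ => rfl
    have h2 : ∀ z, (∑ d', Y z (d * d')) = ∑ d', Y z d' := fun z =>
      Fintype.sum_equiv (Equiv.mulLeft d) _ _ fun _ => rfl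
    have h3 : (∑ a', ∑ d', Y (a * a') (d * d')) = ∑ a', ∑ d', Y a' d' := by
      simp only [h2]
      exact Fintype.sum_equiv (Equiv.mulLeft a) _ _ fun _ => rfl
    simp only [hollow, coe_diagElt_mul, mul_one]
    simp only [hY] at h1 h2 h3
    rw [h1, h2, h3]
  simp only [torOp, e]
  simp only [Finset.sum_add_distrib, Finset.sum_sub_distrib, ← Finset.smul_sum,
    Finset.sum_const, ← natCast_zsmul, natCast_card_units]
  rw [Finset.sum_comm (f := fun a d => Y a d)]
  module

variable {K : Type*} [Field K] [Module K M]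

/-- A character nontrivial on both tori is multiplied by `(q-1)²`. -/
theorem hollow_char (α β : (ZMod q)ˣ →* K) (hα : α ≠ 1) (hβ : β ≠ 1) (w : M) :
    hollow (fun a d => (α a * β d) • w) = (((q : ℤ) - 1) * ((q : ℤ) - 1)) • w := by
  have e1 : ∀ d, ∑ a : (ZMod q)ˣ, (α a * β d) • w = 0 := fun d => by
    rw [← Finset.sum_smul, ← Finset.sum_mul, sum_hom_units_eq_zero α hα, zero_mul, zero_smul]
  have e2 : ∀ a, ∑ d : (ZMod q)ˣ, (α a * β d) • w = 0 := fun a => by
    rw [← Finset.sum_smul, ← Finset.mul_sum, sum_hom_units_eq_zero β hβ, mul_zero, zero_smul]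
  rw [hollow, e1 1, e2 1]
  simp only [e2, Finset.sum_const_zero, smul_zero, sub_zero, add_zero, map_one, one_mul, one_smul]

end Fermat.Agent.RT.InertiaTW
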