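import Fermat.Agent.Carayol.Rigid
import Fermat.Agent.RT.InertiaTW.TorComb
import Fermat.Agent.RT.InertiaTW.Hollow

/-!
# The integral study at `q` for hollowed functions

For a function fixed by the upper unipotent matrices with divisor divisible by `m`, a fixed power
of the hollowed product of its torus translates is a constant times an `m`-th power.
-/

set_option autoImplicit false

noncomputable section

namespace Fermat.Agent.RT.InertiaTW

open Matrix Fermat.Agent.Carayol

section General

variable {K Ω : Type*} [Field K] [Field Ω] [Algebra K Ω] [DecidableEq Ω] {L : TateLevel K Ω}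

/-- The exponent lost. -/
def rigidExp (q : ℕ) [Fact q.Prime] : ℕ := glueExp (upperComb q)

theorem rigidExp_pos (q : ℕ) [Fact q.Prime] : 0 < rigidExp q := glueExp_pos _

theorem mul_diagElt_uPlus {q : ℕ} [Fact q.Prime] (s : ZMod q) (a d : (ZMod q)ˣ) :
    (uPlus s : GL (Fin 2) (ZMod q)) * diagElt a d =
      diagElt a d * uPlus (s * (d : ZMod q) * ((a⁻¹ : (ZMod q)ˣ) : ZMod q)) := by
  refine Units.ext ?_
  rw [Units.val_mul, Units.val_mul]
  simp only [uPlus, diagElt, Matrix.mul_fin_two]
  have e : (a : ZMod q) * (s * (d : ZMod q) * ((a⁻¹ : (ZMod q)ˣ) : ZMod q)) = s * (d : ZMod q) := by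
    rw [mul_left_comm, Units.mul_inv, mul_one]
  simp only [mul_zero, zero_mul, add_zero, zero_add, mul_one, one_mul, e]

/-- Translation, additively. -/
def translAdd (h : GL (Fin 2) (ZMod L.frame.q)) : Additive Ωˣ →+ Additive Ωˣ :=
  MonoidHom.toAdditive (Units.map (L.act h).toRingEquiv.toRingHom.toMonoidHom)

theorem translAdd_ofMul (h : GL (Fin 2) (ZMod L.frame.q)) (F : Ωˣ) :
    translAdd (L := L) h (Additive.ofMul F) = Additive.ofMul (L.transl F h) := rfl

variable (L) in
/-- The hollowed product of the torus translates. -/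
def hollowUnit (F : Ωˣ) : Ωˣ :=
  Additive.toMul (hollow fun a d => Additive.ofMul (L.transl F (diagElt a d)))

theorem transl_hollowUnit (F : Ωˣ) (h : GL (Fin 2) (ZMod L.frame.q)) :
    L.transl (hollowUnit L F) h =
      Additive.toMul (hollow fun a d => Additive.ofMul (L.transl F (h * diagElt a d))) := by
  have e := map_hollow (translAdd (L := L) h)
    (fun a d => Additive.ofMul (L.transl F (diagElt a d)))
  simp only [translAdd_ofMul, ← TateLevel.transl_mul_apply] at e
  rw [← e]
  rfl

/-- Elements of `Places` form a subgroup. -/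
def placesGrp (K Ω : Type*) [Field K] [Field Ω] [Algebra K Ω] (m : ℕ) : Subgroup Ωˣ where
  carrier := {f | Places K m f}
  one_mem' v _ := by simp
  mul_mem' {f g} hf hg v hv := by
    rw [Units.val_mul, map_mul, WithZero.log_mul (v.ne_zero_iff.2 f.ne_zero)
      (v.ne_zero_iff.2 g.ne_zero)]
    exact dvd_add (hf v hv) (hg v hv)
  inv_mem' {f} hf v hv := by
    rw [Units.val_inv_eq_inv_val, map_inv₀, WithZero.log_inv]
    exact (hf v hv).neg_right

theorem places_transl {m : ℕ} {F : Ωˣ} (hF : Places K m F) (h : GL (Fin 2) (ZMod L.frame.q)) :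
    Places K m (L.transl F h) := fun v hv =>
  hF (v.comap (L.act h).toRingEquiv.toRingHom) fun c hc => by
    show v (L.act h (algebraMap K Ω c)) = 1
    rw [AlgEquiv.commutes]
    exact hv c hc

theorem places_hollowUnit {m : ℕ} {F : Ωˣ} (hF : Places K m F) :
    Places K m (hollowUnit L F) := by
  show hollowUnit L F ∈ placesGrp K Ω m
  have hmem : ∀ a d, L.transl F (diagElt a d) ∈ placesGrp K Ω m := fun a d => places_transl hF _
  simp only [hollowUnit, hollow, toMul_add, toMul_sub, toMul_zsmul, toMul_sum, toMul_ofMul]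
  refine mul_mem (div_mem (div_mem (zpow_mem (hmem 1 1) _) (zpow_mem ?_ _)) (zpow_mem ?_ _)) ?_
  · exact prod_mem fun a _ => hmem a 1
  · exact prod_mem fun d _ => hmem 1 d
  · exact prod_mem fun a _ => prod_mem fun d _ => hmem a d

theorem fixedBy_hollowUnit {F : Ωˣ}
    (hF : ∀ s : ZMod L.frame.q, L.transl F (uPlus s) = F) :
    L.FixedBy (upperComb L.frame.q) (hollowUnit L F) := by
  rintro _ ⟨x, rfl⟩
  show L.transl (hollowUnit L F) (uPlus x.toAdd) = _
  rw [transl_hollowUnit, hollowUnit]
  congr 2
  funext a d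
  rw [mul_diagElt_uPlus, TateLevel.transl_mul_apply, hF]

theorem lam_hollowUnit (F : Ωˣ) :
    L.lam (upperComb L.frame.q) (L.transl (hollowUnit L F)) = 1 := by
  have e : (∑ g, (upperComb L.frame.q).coeffs g • Additive.ofMul (L.transl (hollowUnit L F) g)) =
      torOp fun g => hollow fun a d => Additive.ofMul (L.transl F (g * diagElt a d)) := by
    rw [torOp_eq_sum]
    exact Finset.sum_congr rfl fun g _ => by rw [transl_hollowUnit, ofMul_toMul]; rfl
  rw [TateLevel.lam, e]
  exact congrArg Additive.toMul (torOp_hollow fun g => Additive.ofMul (L.transl F g))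

end General

variable {K Ω : Type} [Field K] [Field Ω] [Algebra K Ω] [DecidableEq Ω] {L : TateLevel K Ω}

/-- The conclusion of the integral study. -/
theorem exists_const_mul_pow_hollow {U : UnramBase K L.frame.q} {S : SerBase U} (C : CuspEmb L S)
    {m : ℕ} (hm : IsUnit (m : U.W)) {F : Ωˣ} (hpl : Places K m F)
    (hfix : ∀ s : ZMod L.frame.q, L.transl F (uPlus s) = F) :
    ∃ (κ : Kˣ) (h : Ωˣ), hollowUnit L F ^ rigidExp L.frame.q =
      Units.map (algebraMap K Ω).toMonoidHom κ * h ^ m :=
  exists_const_mul_pow C (upperComb L.frame.q) hm (γ := 1) (κ := 1) (fixedBy_hollowUnit hfix)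
    (places_hollowUnit hpl) (by rw [lam_hollowUnit, map_one, one_pow, mul_one])

end Fermat.Agent.RT.InertiaTW
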