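import Fermat.Agent.RT.InertiaTW.LevelAct
import Fermat.Agent.RT.InertiaTW.HollowRigid

/-!
# The hollowed monodromy of a torsion class fixed by tame inertia vanishes
-/

set_option autoImplicit false

noncomputable section

open UpperHalfPlane hiding I
open CongruenceSubgroup AlgebraicCurve
open Fermat.Agent.ModFun Fermat.Agent.Carayol.Omega Fermat.Agent.JacTorsion
open Fermat.Agent.Carayol (inertiaField diagElt uPlus inertialBase TateLevel)
open ModularCurve (coeffMap qExpand modularFunctionFieldBar JZero)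
open Matrix (GeneralLinearGroup)
open scoped MatrixGroups

namespace Fermat.Agent.RT.InertiaTW

open Fermat.Agent.Arith

attribute [local instance 2000] serAlg

section Transl

open Fermat.Agent.Carayol

variable {K Ω : Type*} [Field K] [Field Ω] [Algebra K Ω] [DecidableEq Ω] (T : TateLevel K Ω)
  (y : Ωˣ) (g : GL (Fin 2) (ZMod T.frame.q))

/-- A translate of a product of translates. -/
theorem transl_prod_uPlus (h : GL (Fin 2) (ZMod T.frame.q)) :
    T.transl (∏ s : ZMod T.frame.q, T.transl y (uPlus s * g)) h =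
      ∏ s : ZMod T.frame.q, T.transl y (h * (uPlus s * g)) := by
  show Units.map _ (∏ s : ZMod T.frame.q, T.transl y (uPlus s * g)) = _
  rw [map_prod]
  exact Finset.prod_congr rfl fun s _ => (TateLevel.transl_mul_apply _ _ _).symm

/-- The product of the upper unipotent translates is fixed by them. -/
theorem transl_prod_uPlus_fixed (b : ZMod T.frame.q) :
    T.transl (∏ s : ZMod T.frame.q, T.transl y (uPlus s * g)) (uPlus b) =
      ∏ s : ZMod T.frame.q, T.transl y (uPlus s * g) := by
  rw [transl_prod_uPlus]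
  refine Fintype.prod_equiv (Equiv.addLeft b) _ _ fun s => ?_
  rw [Equiv.coe_addLeft, uPlus_add, mul_assoc]

end Transl

section Pairs

variable {n : ℕ} [NeZero n] {K : Type} [Field K] [CharZero K] (E : Setup n K)
  (k : Type) [Field k] [Algebra k K] (m : ℕ) [NeZero m]

/-- Pairs of a function and the monodromy of its root. -/
def kumGrp : AddSubgroup (Additive (E.field k)ˣ ×
    (Additive (CongruenceSubgroup.Gamma n) →+ ZMod m)) where
  carrier := {z | KumChar E k m (z.1.toMul : (E.field k)ˣ) z.2}
  zero_mem' := kumChar_one E k m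
  add_mem' {a b} ha hb := by
    show KumChar E k m _ _
    rw [Prod.fst_add, Prod.snd_add, toMul_add, Units.val_mul]
    exact KumChar.mul ha hb
  neg_mem' {a} ha := by
    show KumChar E k m _ _
    rw [Prod.fst_neg, Prod.snd_neg, toMul_neg, Units.val_inv_eq_inv_val]
    exact KumChar.inv ha

theorem mem_kumGrp {z : Additive (E.field k)ˣ ×
    (Additive (CongruenceSubgroup.Gamma n) →+ ZMod m)} :
    z ∈ kumGrp E k m ↔ KumChar E k m (z.1.toMul : (E.field k)ˣ) z.2 := Iff.rfl

variable {q : ℕ} [Fact q.Prime] {E k m}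

/-- Monodromy of a hollowed product. -/
theorem kumChar_hollow {Y : (ZMod q)ˣ → (ZMod q)ˣ → (E.field k)ˣ}
    {Φ : (ZMod q)ˣ → (ZMod q)ˣ → Additive (CongruenceSubgroup.Gamma n) →+ ZMod m}
    (h : ∀ a d, KumChar E k m (Y a d : E.field k) (Φ a d)) :
    KumChar E k m
      ((Additive.toMul (hollow fun a d => Additive.ofMul (Y a d)) : (E.field k)ˣ) : E.field k)
      (hollow Φ) := by
  set Z : (ZMod q)ˣ → (ZMod q)ˣ → Additive (E.field k)ˣ ×
      (Additive (CongruenceSubgroup.Gamma n) →+ ZMod m) :=
    fun a d => (Additive.ofMul (Y a d), Φ a d)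
  have hmem : ∀ a d, Z a d ∈ kumGrp E k m := fun a d => h a d
  have hH : hollow Z ∈ kumGrp E k m := by
    unfold hollow
    exact add_mem (sub_mem (sub_mem (zsmul_mem (hmem 1 1) _)
      (zsmul_mem (sum_mem fun a _ => hmem a 1) _)) (zsmul_mem (sum_mem fun d _ => hmem 1 d) _))
      (sum_mem fun a _ => sum_mem fun d _ => hmem a d)
  rw [mem_kumGrp] at hH
  have e1 := map_hollow (AddMonoidHom.fst (Additive (E.field k)ˣ)
    (Additive (CongruenceSubgroup.Gamma n) →+ ZMod m)) Z
  have e2 := map_hollow (AddMonoidHom.snd (Additive (E.field k)ˣ)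
    (Additive (CongruenceSubgroup.Gamma n) →+ ZMod m)) Z
  simp only [AddMonoidHom.coe_fst, AddMonoidHom.coe_snd] at e1 e2
  rw [e1, e2] at hH
  exact hH

end Pairs

variable {q R n p : ℕ} [Fact q.Prime] [Fact p.Prime] [NeZero q] [NeZero n] [NeZero (q * n)]
  [hcop : Fact (q.Coprime n)] [NeZero (q * R * q)] [hR : Fact (R ∣ n)]
  {A : ValuationSubring QBar} (hA : A.LiesOverPrime q)

set_option maxHeartbeats 1600000 in
/-- The vanishing at level `p ^ r`. -/
theorem exprLin_eq_zero_of_fixed {L : ℕ} (hL : L = 7 ∨ L = 9) (hLn : L ∣ n) (hpq : p ≠ q)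
    (r : ℕ) (x : GaloisReps.JTors (q * R * q) p r)
    (hx : ∀ σ ∈ tameH A q, σ • (x : JZero (q * R * q)) = x) (g : GL (Fin 2) (ZMod q)) :
    exprLin q R n hA (ZMod (p ^ r)) (PadicInt.toZModPow r) (rigidExp q) g
      ((GaloisReps.torsionIso (q * R * q) p (GaloisReps.conjProperty _)).psi r x) = 0 := by
  classical
  have hq : q.Prime := Fact.out
  have : NeZero (p ^ r) := ⟨pow_ne_zero r (Fact.out : p.Prime).ne_zero⟩
  have : IsGalois (inertiaField A) QBar := IsGalois.tower_top_of_isGalois ℚ _ _
  obtain ⟨E, hι⟩ := exists_setup (q * n)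
  have hP : GoodPt (markLabel hcop.out L) := by
    have hord := nsmul_markLabel_eq_zero_iff hcop.out (NeZero.ne n) hLn
    exact ⟨fun h => by have := Nat.le_of_dvd (by norm_num) ((hord 2).mp h); omega,
      fun h => by have := Nat.le_of_dvd (by norm_num) ((hord 3).mp h); omega⟩
  obtain ⟨f, y, hfx, hy, hpl⟩ := exists_level_fun E hA hR.out hcop.out hP (p ^ r) x hx
  set T := GaloisReps.torsionIso (q * R * q) p (GaloisReps.conjProperty _) with hT
  set T₀ := E.tateLevel (inertiaField A) hcop.out hq L hL hLn (hgal hA E) with hT₀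
  have hmon : ∀ h : GL (Fin 2) (ZMod q), KumChar E (inertiaField A) (p ^ r) (T₀.act h y)
      (monLin q R n hA (ZMod (p ^ r)) (PadicInt.toZModPow r) h (T.psi r x)) := by
    intro h
    set σ := inertiaLift hA (GeneralLinearGroup.det h)
    have hk := kumChar_act hA hι hL hLn h f (y : E.field (inertiaField A)) (m := p ^ r) hy
      (GaloisReps.galTors r σ x) (by rw [hfx]; rfl)
    have e : monLin q R n hA (ZMod (p ^ r)) (PadicInt.toZModPow r) h (T.psi r x) =
        sOf h • phiRed (p ^ r) (GaloisReps.galTors r σ x) := by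
      rw [monLin_apply, galMat, ← hT, T.map_gal, T.galLvl_mulVec, T.psi_apply]
      congr 1
      exact phiLin_coord q R n (torsionEquiv (q * R * q) (p ^ r) (GaloisReps.galTors r σ x)).2
    rw [e]
    exact hk
  set F : (E.field (inertiaField A))ˣ :=
    ∏ s : ZMod q, T₀.transl y (uPlus s * g) with hF
  have hfix : ∀ b : ZMod q, T₀.transl F (uPlus b) = F := transl_prod_uPlus_fixed T₀ y g
  have hplF : Carayol.Places (inertiaField A) (p ^ r) F :=
    Subgroup.prod_mem (placesGrp (inertiaField A) (E.field (inertiaField A)) (p ^ r))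
      fun s _ => places_transl hpl _
  have hunit : IsUnit ((p ^ r : ℕ) : (inertialBase hA hq).W) := by
    have := (inertialBase hA hq).isLocal
    by_contra hu
    have h1 : ((p ^ r : ℕ) : (inertialBase hA hq).W) ∈ Ideal.span {(q : (inertialBase hA hq).W)} := by
      rw [← (inertialBase hA hq).max_eq]; exact hu
    have hc : IsCoprime (q : ℤ) ((p ^ r : ℕ) : ℤ) := Nat.isCoprime_iff_coprime.mpr
      (Nat.Coprime.pow_right r ((Nat.coprime_primes hq Fact.out).mpr hpq.symm))
    obtain ⟨a, b, hab⟩ := hc
    have h2 : (1 : (inertialBase hA hq).W) ∈ Ideal.span {(q : (inertialBase hA hq).W)} := by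
      have := congrArg (fun z : ℤ => ((z : ℤ) : (inertialBase hA hq).W)) hab
      simp only [Int.cast_add, Int.cast_mul, Int.cast_natCast, Int.cast_one] at this
      rw [← this]
      exact add_mem (Ideal.mul_mem_left _ _ (Ideal.mem_span_singleton_self _))
        (Ideal.mul_mem_left _ _ h1)
    rw [← (inertialBase hA hq).max_eq] at h2
    exact h2 isUnit_one
  obtain ⟨κ, h, he⟩ := exists_const_mul_pow_hollow
    (E.cuspEmb hA hq hcop.out L hL hLn (hgal hA E)) hunit hplF hfix
  have hlhs : KumChar E (inertiaField A) (p ^ r)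
      ((hollowUnit T₀ F ^ rigidExp q : (E.field (inertiaField A))ˣ) : E.field (inertiaField A))
      (exprLin q R n hA (ZMod (p ^ r)) (PadicInt.toZModPow r) (rigidExp q) g (T.psi r x)) := by
    rw [exprLin_apply, Units.val_pow_eq_pow_val]
    refine (kumChar_hollow fun a d => ?_).pow _
    have e := transl_prod_uPlus T₀ y g (diagElt (q := q) a d)
    have e' := congrArg Units.val e
    rw [Units.coe_prod] at e'
    rw [show ((T₀.transl F (diagElt a d) : (E.field (inertiaField A))ˣ) : E.field (inertiaField A))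
      = _ from e']
    exact KumChar.prod Finset.univ fun s _ => hmon _
  have hrhs : KumChar E (inertiaField A) (p ^ r)
      ((hollowUnit T₀ F ^ rigidExp q : (E.field (inertiaField A))ˣ) : E.field (inertiaField A))
      0 := by
    rw [show hollowUnit T₀ F ^ rigidExp q = _ from he]
    have := (kumChar_const (E := E) (k := inertiaField A) (m := p ^ r) κ.ne_zero).mul
      (kumChar_pow_self (E := E) (k := inertiaField A) (m := p ^ r) h.ne_zero)
    rw [add_zero] at this
    simpa using this
  exact hlhs.unique hrhs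

/-- The vanishing over `ℤ_p`. -/
theorem exprLin_padic_eq_zero {L : ℕ} (hL : L = 7 ∨ L = 9) (hLn : L ∣ n) (hpq : p ≠ q)
    (w : Fin (2 * Gamma0.genus (q * R * q)) → ℤ_[p])
    (hw : ∀ σ ∈ tameH A q, (galMat q R σ).mulVec w = w) (g : GL (Fin 2) (ZMod q)) :
    exprLin q R n hA ℤ_[p] (RingHom.id _) (rigidExp q) g w = 0 := by
  refine AddMonoidHom.ext fun γ => PadicInt.ext_of_toZModPow.mp fun r => ?_
  set T := GaloisReps.torsionIso (q * R * q) p (GaloisReps.conjProperty _) with hT
  obtain ⟨x, hx⟩ := (T.psi r).surjective fun i => PadicInt.toZModPow r (w i)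
  have hfix : ∀ σ ∈ tameH A q, σ • (x : JZero (q * R * q)) = x := fun σ hσ => by
    refine congrArg Subtype.val (?_ : GaloisReps.galTors r σ x = x)
    refine (T.psi r).injective ?_
    rw [← T.galLvl_mulVec, hx, ← T.map_gal]
    funext i
    exact ((PadicInt.toZModPow r).map_mulVec _ _ _).symm.trans
      (congrArg (PadicInt.toZModPow r) (congrFun (hw σ hσ) i))
  have h1 := exprLin_comp q R n hA (PadicInt.toZModPow r) (RingHom.id _) (rigidExp q) g w
  rw [RingHom.comp_id, ← hx, exprLin_eq_zero_of_fixed hA hL hLn hpq r x hfix g] at h1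
  exact (DFunLike.congr_fun h1 γ).trans (map_zero _).symm

end Fermat.Agent.RT.InertiaTW
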