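import Fermat.Agent.RT.InertiaTW.LevelFun
import Fermat.Agent.RT.InertiaTW.Monodromy

/-!
# The action of `GL₂(𝔽_q)` on rescaled Kummer functions, through monodromy
-/

set_option autoImplicit false

noncomputable section

open UpperHalfPlane hiding I
open CongruenceSubgroup AlgebraicCurve
open Fermat.Agent.ModFun Fermat.Agent.Carayol.Omega Fermat.Agent.JacTorsion
open Fermat.Agent.Carayol (inertiaField mem_inertiaField diagElt)
open ModularCurve (coeffMap qExpand modularFunctionFieldBar JZero)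
open Matrix (GeneralLinearGroup)
open scoped MatrixGroups

namespace Fermat.Agent.RT.InertiaTW

open Fermat.Agent.Arith

attribute [local instance 2000] serAlg

theorem exists_setup (N : ℕ) [NeZero N] : ∃ E : Setup N QBar, E.ι = ιQ := by
  obtain ⟨ζ, hζ⟩ := HasEnoughRootsOfUnity.exists_primitiveRoot QBar N
  obtain ⟨i, -, hi⟩ := (hζ.map_of_injective (f := ιQ) ιQ.injective).eq_pow_of_pow_eq_one
    (isPrimitiveRoot_zetaC N).pow_eq_one
  exact ⟨⟨ιQ, ζ ^ i, by rw [map_pow, hi]⟩, rfl⟩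

variable {q R n : ℕ} [Fact q.Prime] [NeZero q] [NeZero n] [NeZero (q * n)]
  [hcop : Fact (q.Coprime n)] [NeZero (q * R * q)] [hR : Fact (R ∣ n)]
  {A : ValuationSubring QBar} (hA : A.LiesOverPrime q) (E : Setup (q * n) QBar)

/-- An inertia element over the field fixed by inertia. -/
def liftAut (w : (ZMod q)ˣ) : QBar ≃ₐ[inertiaField A] QBar :=
  { (inertiaLift hA w).toRingEquiv with
    commutes' := fun x => (mem_inertiaField A).mp x.2 _ (inertiaLift_mem hA w) }

omit [NeZero (q * R * q)] hR in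
theorem liftAut_zeta (w : (ZMod q)ˣ) :
    liftAut hA w (E.ζ ^ q) = E.ζ ^ q ∧
      liftAut hA w (E.ζ ^ n) = (E.ζ ^ n) ^ (w : ZMod q).val :=
  ⟨inertia_root hA Fact.out (inertiaLift_mem hA w) (m := n)
      (by rw [← pow_mul, E.isPrimitiveRoot.pow_eq_one])
      ((Fact.out : q.Prime).coprime_iff_not_dvd.mp hcop.out),
    inertiaLift_apply hA w ((isPrimitiveRoot_pow_n E).pow_eq_one)⟩

include hA in
omit [NeZero (q * R * q)] hR in
theorem hgal : ∀ d : (ZMod q)ˣ, ∃ σ : QBar ≃ₐ[inertiaField A] QBar,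
    σ (E.ζ ^ q) = E.ζ ^ q ∧ σ (E.ζ ^ n) = (E.ζ ^ n) ^ (d : ZMod q).val :=
  fun d => ⟨liftAut hA d, liftAut_zeta hA E d⟩

omit [NeZero (q * R * q)] hR in
theorem diagMat_eq_liftMat {c : ℕ} (w : (ZMod q)ˣ)
    (hc : liftAut hA w E.ζ = E.ζ ^ c) :
    diagMat (q * n) (c : ZMod (q * n)) =
      liftMat hcop.out ((diagElt 1 w : GL (Fin 2) (ZMod q)) : Matrix (Fin 2) (Fin 2) (ZMod q)) := by
  obtain ⟨hzq, hzn⟩ := liftAut_zeta hA E w
  have hp : IsPrimitiveRoot (E.ζ ^ n) q := E.isPrimitiveRoot.pow (NeZero.pos _) (mul_comm q n)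
  have hp' : IsPrimitiveRoot (E.ζ ^ q) n := E.isPrimitiveRoot.pow (NeZero.pos _) rfl
  have h1 : (c : ZMod q) = (w : ZMod q) := by
    have e : (E.ζ ^ n) ^ c = (E.ζ ^ n) ^ (w : ZMod q).val := by
      rw [← hzn, map_pow, hc, ← pow_mul, ← pow_mul, Nat.mul_comm n c]
    rw [pow_eq_pow_mod c hp.pow_eq_one] at e
    rw [← ZMod.natCast_mod, hp.pow_inj (Nat.mod_lt _ (NeZero.pos q)) (ZMod.val_lt _) e,
      ZMod.natCast_zmod_val]
  have h2 : (c : ZMod n) = 1 := by
    have e : (E.ζ ^ q) ^ c = (E.ζ ^ q) ^ 1 := by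
      rw [pow_one]
      conv_rhs => rw [← hzq, map_pow, hc]
      rw [← pow_mul, ← pow_mul, Nat.mul_comm q c]
    rw [pow_eq_pow_mod c hp'.pow_eq_one, pow_eq_pow_mod 1 hp'.pow_eq_one] at e
    rw [← ZMod.natCast_mod, hp'.pow_inj (Nat.mod_lt _ (NeZero.pos n)) (Nat.mod_lt _ (NeZero.pos n)) e,
      ZMod.natCast_mod, Nat.cast_one]
  ext i j
  apply (crt hcop.out).injective
  rw [crt_liftMat]
  fin_cases i <;> fin_cases j <;> simp only [diagMat, diagElt] <;>
    simp [h1, h2, map_natCast, Prod.ext_iff]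

omit [NeZero (q * R * q)] hR in
theorem redMat_eq_liftMat (h : GL (Fin 2) (ZMod q)) :
    redMat (q * n) (liftSL (n := n) (sOf h)⁻¹) = liftMat hcop.out
      ((h * diagElt 1 (GeneralLinearGroup.det h)⁻¹ : GL (Fin 2) (ZMod q)) :
        Matrix (Fin 2) (Fin 2) (ZMod q)) := by
  set γ := liftSL (n := n) (sOf h)⁻¹
  have hq : Matrix.SpecialLinearGroup.map (Int.castRingHom (ZMod q)) γ = (sOf h)⁻¹ := map_liftSL _
  obtain ⟨b1, b2, b3, b4⟩ := Gamma_mem.mp (liftSL_mem (n := n) (sOf h)⁻¹)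
  ext i j
  apply (crt hcop.out).injective
  rw [crt_liftMat]
  have e : ((γ i j : ℤ) : ZMod q) = ((sOf h)⁻¹ : SL(2, ZMod q)) i j := by
    rw [← hq]; rfl
  refine Prod.ext ?_ ?_
  · simp only [redMat, Matrix.map_apply, map_intCast, Prod.fst_intCast, e]
    rw [Matrix.SpecialLinearGroup.coe_inv, sOf, Matrix.adjugate_fin_two]
    fin_cases i <;> fin_cases j <;> simp [diagElt, Matrix.mul_apply, Fin.sum_univ_two]
  · simp only [redMat, Matrix.map_apply, map_intCast, Prod.snd_intCast]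
    fin_cases i <;> fin_cases j <;> simp_all [γ]

section Torsion

variable (m : ℕ) [NeZero m]

/-- The monodromy attached to a torsion class. -/
def phiRed (x : Pic0.torsion QBar (modularFunctionFieldBar (q * R * q)) m) :
    Additive (Gamma (q * n)) →+ ZMod m :=
  (torsionEquiv (q * R * q) m x).1.comp (MonoidHom.toAdditive (rescale0 q R n))

variable {E} (hι : E.ι = ιQ) [DecidableEq ℂ] [DecidableEq (E.field (inertiaField A))]
  [IsGalois (inertiaField A) QBar] {L : ℕ} (hL : L = 7 ∨ L = 9) (hLn : L ∣ n)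

include hι in
/-- The translate of a rescaled Kummer function. -/
theorem kumChar_act (h : GL (Fin 2) (ZMod q))
    (f : divGrp QBar (modularFunctionFieldBar (q * R * q)) m) (y : E.field (inertiaField A))
    (hy : (y : LaurentSeries QBar) = qExpand QBar n
      (((f : (modularFunctionFieldBar (q * R * q))ˣ) : modularFunctionFieldBar (q * R * q)) :
        LaurentSeries QBar))
    (x' : Pic0.torsion QBar (modularFunctionFieldBar (q * R * q)) m)
    (hx' : (x' : JZero (q * R * q)) = inertiaLift hA (GeneralLinearGroup.det h) •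
      (toTorsion (Additive.ofMul f) : JZero (q * R * q))) :
    KumChar E (inertiaField A) m
      ((E.tateLevel (inertiaField A) hcop.out Fact.out L hL hLn (hgal hA E)).act h y)
      (sOf h • phiRed m x') := by
  set w := GeneralLinearGroup.det h
  obtain ⟨c, e₁, -, hσ, he₁, hv₁⟩ := E.exists_moves_conj (inertiaField A) (liftAut hA w)
  obtain ⟨e₂, he₂, hv₂⟩ := E.exists_moves_subst (inertiaField A) (liftSL (n := n) (sOf h)⁻¹)
  have hact : (E.tateLevel (inertiaField A) hcop.out Fact.out L hL hLn (hgal hA E)).act h =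
      e₂ * e₁ := by
    refine (E.act_moves (inertiaField A) Fact.out L hL hLn hcop.out (hgal hA E) h).ext ?_
    have := he₂.mul he₁
    rw [diagMat_eq_liftMat hA E w hσ, redMat_eq_liftMat, ← liftMat_mul, ← Units.val_mul,
      mul_assoc, show diagElt (1 : (ZMod q)ˣ) w⁻¹ * diagElt 1 w = 1 by
        rw [Carayol.diagElt_mul, inv_mul_cancel, one_mul]
        exact Units.ext (by simp [diagElt, Matrix.one_fin_two]), mul_one] at this
    exact this
  obtain ⟨f', hf', hf'x⟩ := exists_smul_toTorsion (q := q) (R := R) m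
    (inertiaLift hA w) f
  obtain rfl : x' = toTorsion (Additive.ofMul f') := Subtype.ext (hx'.trans hf'x.symm)
  have h1 : KumChar E (inertiaField A) m (e₁ y) (phiRed m (toTorsion (Additive.ofMul f'))) := by
    refine kumChar_toTorsion E hι (inertiaField A) f' ?_ (rescale_mem q R n)
    rw [hv₁, hy, ModularCurve.coeffMap_qExpand, hf']
    rfl
  rw [hact, AlgEquiv.mul_apply]
  exact h1.subst (liftSL (n := n) (sOf h)⁻¹) (hv₂ (e₁ y))

end Torsion

end Fermat.Agent.RT.InertiaTW
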