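import Fermat.Agent.RT.InertiaTW.RationalSub
import Fermat.Agent.RT.InertiaTW.Consts
import Fermat.Agent.RT.InertiaTW.KummerChar
import Fermat.Agent.Carayol.Omega.Maps
import Fermat.Agent.Carayol.Glue
import Fermat.Agent.Carayol.Omega.CuspInst

/-!
# Torsion classes fixed by tame inertia as functions in the field of level `q n`

A torsion class of `X₀(q R q)` fixed by the inertia elements fixing the `q`-th roots of unity has
a Kummer function whose rescaling lies in the field of level `q n` over the field fixed by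
inertia, with divisor divisible by `m`.
-/

set_option autoImplicit false

noncomputable section

open UpperHalfPlane hiding I
open CongruenceSubgroup AlgebraicCurve
open Fermat.Agent.ModFun Fermat.Agent.Carayol.Omega Fermat.Agent.JacTorsion
open Fermat.Agent.Carayol (inertiaField mem_inertiaField Places)
open ModularCurve (coeffMap qExpand jqModC modularFunctionFieldBar modularFunctionFieldFull JZero
  arithmeticGalois galois_smul_pic0_def)
open scoped MatrixGroups

namespace Fermat.Agent.RT.InertiaTW

open Fermat.Agent.Arith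

attribute [local instance 2000] serAlg

theorem algebraMap_sub_C {H : Subgroup GQ} (c : subFixed H) :
    algebraMap (subFixed H) (LaurentSeries QBar) c = HahnSeries.C (c : QBar) := by
  rw [IsScalarTower.algebraMap_apply (subFixed H) QBar (LaurentSeries QBar)]
  exact algebraMap_laurent_comp (k := QBar) (K := QBar) (c : QBar)

theorem coe_algebraMap_subRat {H : Subgroup GQ} {N : ℕ} (c : subFixed H) :
    ((algebraMap _ (subRat H N) c : subRat H N) : LaurentSeries QBar) = HahnSeries.C (c : QBar) :=
  algebraMap_sub_C c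

variable {q R n : ℕ} [Fact q.Prime] [NeZero q] [NeZero n] [NeZero (q * n)] [NeZero (q * R * q)]
  {A : ValuationSubring QBar} (E : Setup (q * n) QBar)
  (hA : A.LiesOverPrime q) (hR : R ∣ n) (hcop : q.Coprime n)
  {P : ZMod (q * n) × ZMod (q * n)} (hP : GoodPt P)

omit [Fact q.Prime] [NeZero (q * R * q)] [NeZero n] in
theorem zeta_pow_mem (j : ℕ) : HahnSeries.C (E.ζ ^ j) ∈ E.field (inertiaField A) := by
  have h := E.zetaS_mem (k := inertiaField A) (j : ZMod (q * n))
  rwa [ZMod.val_natCast, ← pow_eq_pow_mod j E.isPrimitiveRoot.pow_eq_one] at h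

omit [Fact q.Prime] [NeZero (q * R * q)] in
theorem isPrimitiveRoot_pow_n : IsPrimitiveRoot (E.ζ ^ n) q :=
  E.isPrimitiveRoot.pow (NeZero.pos _) (mul_comm q n)

omit [Fact q.Prime] [NeZero (q * R * q)] [NeZero n] in
theorem aeval_C_val (Q : Polynomial (inertiaField A)) :
    HahnSeries.C (Polynomial.aeval (E.ζ ^ n) Q) =
      ((Polynomial.aeval (⟨_, zeta_pow_mem (A := A) E n⟩ : E.field (inertiaField A)) Q :
        E.field (inertiaField A)) : LaurentSeries QBar) := by
  have h := Polynomial.aeval_algHom_apply (E.field (inertiaField A)).val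
    (⟨_, zeta_pow_mem (A := A) E n⟩ : E.field (inertiaField A)) Q
  refine Eq.trans ?_ h
  rw [Polynomial.aeval_def, Polynomial.aeval_def, Polynomial.hom_eval₂]
  exact Polynomial.eval₂_congr (RingHom.ext fun a => (algebraMap_laurent_comp a).symm) rfl rfl

include hA in
omit [NeZero (q * R * q)] in
/-- Constants fixed by tame inertia lie in the field. -/
theorem C_mem_field {c : QBar} (hc : ∀ σ ∈ tameH A q, σ c = c) :
    HahnSeries.C c ∈ E.field (inertiaField A) := by
  obtain ⟨Q, hQ⟩ := exists_aeval_eq_of_fixed hA (isPrimitiveRoot_pow_n E) hc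
  set z : E.field (inertiaField A) := ⟨_, zeta_pow_mem (A := A) E n⟩ with hz
  have e : HahnSeries.C c = ((Polynomial.aeval z Q : E.field (inertiaField A)) :
      LaurentSeries QBar) := by
    rw [← aeval_C_val (A := A) E Q, hQ]
  exact e ▸ SetLike.coe_mem _

include hA hR hcop hP in
/-- The rescaled rational functions lie in the field. -/
theorem qExpand_subRat_mem {x : LaurentSeries QBar} (hx : x ∈ subRat (tameH A q) (q * R * q)) :
    qExpand QBar n x ∈ E.field (inertiaField A) := by
  induction hx using IntermediateField.adjoin_induction with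
  | mem z hz =>
    obtain ⟨d, hd, hdvd, rfl⟩ := hz
    haveI := hd
    exact E.qExpand_jd_mem (inertiaField A) hP hcop Fact.out hR hdvd
  | algebraMap c =>
    rw [algebraMap_sub_C, ModularCurve.qExpand_C]
    exact C_mem_field E hA fun σ hσ => (mem_subFixed (tameH A q)).mp c.2 σ hσ
  | add a b _ _ ha hb => rw [map_add]; exact add_mem ha hb
  | inv a _ ha => rw [map_inv₀]; exact inv_mem ha
  | mul a b _ _ ha hb => rw [map_mul]; exact mul_mem ha hb

/-- The rescaling, into the field of level `q n`. -/
def toLevel : subRat (tameH A q) (q * R * q) →+* E.field (inertiaField A) :=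
  ((qExpand QBar n).comp (subRat (tameH A q) (q * R * q)).val.toRingHom).codRestrict
    (E.field (inertiaField A)).toSubfield fun x => qExpand_subRat_mem E hA hR hcop hP x.2

theorem coe_toLevel (x : subRat (tameH A q) (q * R * q)) :
    (toLevel E hA hR hcop hP x : LaurentSeries QBar) = qExpand QBar n (x : LaurentSeries QBar) :=
  rfl

/-- A valuation trivial on the field fixed by inertia is trivial on the constants fixed by tame
inertia. -/
theorem valuation_toLevel_const (v : Valuation (E.field (inertiaField A))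
      (WithZero (Multiplicative ℤ)))
    (hv : ∀ c : inertiaField A, c ≠ 0 → v (algebraMap (inertiaField A) _ c) = 1)
    (c : subFixed (tameH A q)) (hc : c ≠ 0) :
    v (toLevel E hA hR hcop hP (algebraMap _ _ c)) = 1 := by
  have hz : v ⟨_, zeta_pow_mem (A := A) E n⟩ = 1 := by
    refine (pow_left_inj₀ zero_le zero_le (NeZero.ne q)).mp ?_
    rw [one_pow, ← map_pow, ← map_one v]
    refine congrArg v (Subtype.ext ?_)
    rw [SubmonoidClass.coe_pow, OneMemClass.coe_one]
    show (HahnSeries.C (E.ζ ^ n)) ^ q = 1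
    rw [← map_pow, (isPrimitiveRoot_pow_n E).pow_eq_one, map_one]
  have hle : ∀ c : subFixed (tameH A q),
      v (toLevel E hA hR hcop hP (algebraMap _ _ c)) ≤ 1 := by
    intro c
    obtain ⟨Q, hQ⟩ := exists_aeval_eq_of_fixed hA (isPrimitiveRoot_pow_n E)
      ((mem_subFixed (tameH A q)).mp c.2)
    have e : toLevel E hA hR hcop hP (algebraMap _ _ c) = Polynomial.aeval
        (⟨_, zeta_pow_mem (A := A) E n⟩ : E.field (inertiaField A)) Q := by
      refine Subtype.ext ?_
      rw [coe_toLevel, ← aeval_C_val, hQ, coe_algebraMap_subRat, ModularCurve.qExpand_C]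
    rw [e, Polynomial.aeval_eq_sum_range]
    refine Valuation.map_sum_le _ fun i _ => ?_
    rw [Algebra.smul_def, map_mul, map_pow, hz, one_pow, mul_one]
    rcases eq_or_ne (Q.coeff i) 0 with h | h
    · rw [h, map_zero, map_zero]; exact zero_le
    · exact (hv _ h).le
  refine le_antisymm (hle c) ?_
  have h1 := hle c⁻¹
  have h0 : v (toLevel E hA hR hcop hP (algebraMap _ _ c)) ≠ 0 := v.ne_zero_iff.mpr (by simpa using hc)
  rwa [map_inv₀, map_inv₀, map_inv₀, inv_le_one₀ (zero_lt_iff.mpr h0)] at h1

section Bar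

variable (m : ℕ) [NeZero m]

local notation "FN" => modularFunctionFieldBar (q * R * q)
local notation "TN" => Pic0.torsion QBar (modularFunctionFieldBar (q * R * q)) m

include hA hR hcop hP in
/-- A Kummer function in the field of level `q n`. -/
theorem exists_level_fun (x : TN)
    (hx : ∀ σ ∈ tameH A q, σ • (x : JZero (q * R * q)) = x) :
    ∃ (f : divGrp QBar FN m) (y : (E.field (inertiaField A))ˣ),
      toTorsion (Additive.ofMul f) = x ∧
      ((y : E.field (inertiaField A)) : LaurentSeries QBar) =
        qExpand QBar n (((f : FNˣ) : FN) : LaurentSeries QBar) ∧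
      Places (inertiaField A) m y := by
  obtain ⟨D, hD, hfix⟩ := exists_fixed_rep hx
  have hprin : ((m : ℤ) • (D : Divisor QBar FN)).IsPrincipal := by
    have h := Pic0.mem_torsion.mp x.2
    rw [← hD] at h
    have h' := (QuotientAddGroup.eq_zero_iff ((m : ℤ) • D)).mp h
    rwa [AddSubgroup.mem_addSubgroupOf, AddSubgroup.coe_zsmul] at h'
  obtain ⟨f₀, hf0, hfc, hord⟩ := exists_fixed_fun (H := tameH A q) hprin fun σ hσ => by
    exact (map_zsmul (DistribSMul.toAddMonoidHom (Divisor QBar FN) _) _ _).trans
      (congrArg _ (hfix σ hσ))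
  have hord' : ∀ P : Place QBar FN, P.ord f₀ = (m : ℤ) * (D : Divisor QBar FN) P := fun P => by
    rw [← hord P, Finsupp.smul_apply, smul_eq_mul]
  have hmem : Units.mk0 f₀ hf0 ∈ divGrp QBar FN m := fun P => by
    rw [Units.val_mk0, hord']; exact dvd_mul_right _ _
  have hrat := mem_subRat f₀.2 hfc
  have hy0 : toLevel E hA hR hcop hP ⟨_, hrat⟩ ≠ 0 := by
    rw [map_ne_zero]
    exact fun h => hf0 (Subtype.ext (show (f₀ : LaurentSeries QBar) = 0 from congrArg Subtype.val h))
  refine ⟨⟨_, hmem⟩, Units.mk0 _ hy0, Subtype.ext ?_, rfl, fun v hv => ?_⟩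
  · rw [← hD]
    refine congrArg Pic0.mk (Subtype.ext (eq_of_smul_eq (m := m) ?_))
    show (m : ℤ) • divQuot ⟨_, hmem⟩ = _
    rw [smul_divQuot]
    ext P
    rw [div_apply, Finsupp.smul_apply, smul_eq_mul]
    exact hord' P
  · exact dvd_log_valuation hfix hf0 hord' hrat (v.comap (toLevel E hA hR hcop hP))
      fun c hc => valuation_toLevel_const E hA hR hcop hP v hv c hc

omit [Fact q.Prime] [NeZero q] in
/-- Galois on Kummer functions. -/
theorem exists_smul_toTorsion (σ : GQ) (f : divGrp QBar FN m) :
    ∃ f' : divGrp QBar FN m,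
      (((f' : FNˣ) : FN) : LaurentSeries QBar) =
        coeffMap (σ : QBar →+* QBar) (((f : FNˣ) : FN) : LaurentSeries QBar) ∧
      (toTorsion (Additive.ofMul f') : JZero (q * R * q)) =
        σ • (toTorsion (Additive.ofMul f) : JZero (q * R * q)) := by
  set g := arithmeticGalois (modularFunctionFieldFull (q * R * q)) σ with hg
  let u : FNˣ := Units.map (SemilinearAut.toRingAut g).toRingHom.toMonoidHom (f : FNˣ)
  have hu : ∀ P : Place QBar FN, P.ord ((u : FNˣ) : FN) = (g⁻¹ • P).ord ((f : FNˣ) : FN) :=
    fun P => by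
      have h := SemilinearAut.ord_smul g (g⁻¹ • P) ((f : FNˣ) : FN)
      rwa [smul_inv_smul] at h
  have hmem : u ∈ divGrp QBar FN m := fun P => by rw [hu]; exact f.2 _
  refine ⟨⟨u, hmem⟩, rfl, ?_⟩
  show Pic0.mk _ = σ • Pic0.mk _
  rw [galois_smul_pic0_def, SemilinearAut.pic0_smul_mk]
  refine congrArg Pic0.mk (Subtype.ext (eq_of_smul_eq (m := m) ?_))
  show (m : ℤ) • divQuot ⟨u, hmem⟩ = (m : ℤ) • (g • divQuot f)
  rw [smul_divQuot, ← show g • ((m : ℤ) • divQuot f) = (m : ℤ) • (g • divQuot f) from
    map_zsmul (DistribSMul.toAddMonoidHom (Divisor QBar FN) g) _ _, smul_divQuot]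
  ext P
  rw [div_apply, SemilinearAut.divisor_smul_apply, div_apply, hu]

end Bar

end Fermat.Agent.RT.InertiaTW
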