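import Fermat.Agent.RT.InertiaTW.IntegralVanish
import Fermat.Agent.RT.InertiaTW.GroupSum
import Fermat.Agent.RT.InertiaTW.BaseChange

/-!
# The twisted trace of an inertia eigenvector vanishes

An eigenvector of inertia at `q` with character `θ` different from `χ` and `χ⁻¹` has twisted
trace zero: the rigid combination of the translates, averaged against `χ`, is a nonzero multiple
of it.
-/

set_option autoImplicit false

noncomputable section

open CongruenceSubgroup Matrix.SpecialLinearGroup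
open scoped MatrixGroups

namespace Fermat.Agent.RT.InertiaTW

open Fermat.Agent.Arith
open Carayol (diagElt uPlus uMinus)
open Matrix (GeneralLinearGroup)

section Linear

variable {q : ℕ} [Fact q.Prime] {M : Type*} [AddCommGroup M] [Module ℂ M]
  [DistribMulAction SL(2, ZMod q) M] [SMulCommClass SL(2, ZMod q) ℂ M] (χ : (ZMod q)ˣ →* ℂ)

theorem lowerTr_smul (c : ℂ) (x : M) : lowerTr (q := q) (c • x) = c • lowerTr (q := q) x := by
  simp only [lowerTr, Finset.smul_sum, smul_comm _ c]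

theorem lowerTr_sum {ι : Type*} (s : Finset ι) (x : ι → M) :
    lowerTr (q := q) (∑ i ∈ s, x i) = ∑ i ∈ s, lowerTr (q := q) (x i) := by
  simp only [lowerTr, Finset.smul_sum]
  exact Finset.sum_comm

theorem twistOp_smul (c : ℂ) (x : M) : twistOp χ (c • x) = c • twistOp χ x := by
  simp only [twistOp, Finset.smul_sum, smul_comm _ c]

theorem sDiag_mul_sMinus (a : (ZMod q)ˣ) (s : ZMod q) :
    sDiag a * sMinus s = sMinus (((a * a : (ZMod q)ˣ) : ZMod q) * s) * sDiag a := by
  refine Subtype.ext ?_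
  rw [Matrix.SpecialLinearGroup.coe_mul, Matrix.SpecialLinearGroup.coe_mul, coe_sDiag, coe_sMinus,
    coe_sMinus, Matrix.mul_fin_two, Matrix.mul_fin_two]
  have := a.ne_zero
  rw [Units.val_mul, Units.val_inv_eq_inv_val]
  ext i j
  fin_cases i <;> fin_cases j <;> simp [-ZMod.inv_coe_unit] <;> field_simp

theorem sDiag_mul_sPlus (a : (ZMod q)ˣ) (s : ZMod q) :
    sDiag a * sPlus s = sPlus (((a⁻¹ * a⁻¹ : (ZMod q)ˣ) : ZMod q) * s) * sDiag a := by
  refine Subtype.ext ?_
  rw [Matrix.SpecialLinearGroup.coe_mul, Matrix.SpecialLinearGroup.coe_mul, coe_sDiag, coe_sPlus,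
    coe_sPlus, Matrix.mul_fin_two, Matrix.mul_fin_two]
  have := a.ne_zero
  rw [Units.val_mul, Units.val_inv_eq_inv_val]
  ext i j
  fin_cases i <;> fin_cases j <;> simp [-ZMod.inv_coe_unit] <;> field_simp

/-- The diagonal matrices act on the twisted trace of a fixed vector through `χ²`. -/
theorem sDiag_lowerTr_twistOp {x : M} (hx : ∀ a : (ZMod q)ˣ, sDiag a • x = x) (a : (ZMod q)ˣ) :
    sDiag a • lowerTr (q := q) (twistOp χ x) =
      (χ a * χ a) • lowerTr (q := q) (twistOp χ x) := by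
  have e1 : ∀ y : M, sDiag a • lowerTr (q := q) y = lowerTr (q := q) (sDiag a • y) := fun y => by
    simp only [lowerTr, Finset.smul_sum, smul_smul, sDiag_mul_sMinus]
    exact Fintype.sum_equiv (Units.mulLeft (a * a)) _ _ fun _ => rfl
  have e2 : sDiag a • twistOp χ x = (χ a * χ a) • twistOp χ x := by
    simp only [twistOp, Finset.smul_sum, smul_comm (sDiag a) (χ _), smul_smul, sDiag_mul_sPlus]
    refine Fintype.sum_equiv (Equiv.mulLeft (a⁻¹ * a⁻¹)) _ _ fun u => ?_
    rw [Equiv.coe_mulLeft, ← map_mul χ, ← map_mul χ, mul_smul, hx,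
      show a * a * (a⁻¹ * a⁻¹ * u) = u by group]
    simp only [Units.val_mul]
  rw [e1, e2, lowerTr_smul]

/-- The translate through which a term of the combination acts. -/
theorem sOf_diag_uPlus_uMinus (a d : (ZMod q)ˣ) (s b : ZMod q) :
    sOf (diagElt a d * (uPlus s * uMinus b)) = sDiag a *
      (sMinus ((((a * d)⁻¹ : (ZMod q)ˣ) : ZMod q) * -s) *
        sPlus (-(((a * d : (ZMod q)ˣ) : ZMod q) * b))) ∧
      GeneralLinearGroup.det (diagElt a d * (uPlus s * uMinus b)) = a * d := by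
  have hm : ((diagElt a d * (uPlus s * uMinus b) : GL (Fin 2) (ZMod q)) :
      Matrix (Fin 2) (Fin 2) (ZMod q)) =
      !![(a : ZMod q) * (1 + s * b), a * s; d * b, d] := by
    rw [Units.val_mul, Units.val_mul]
    simp [diagElt, uPlus, uMinus, Matrix.mul_fin_two, -ZMod.inv_coe_unit]
  have hd : GeneralLinearGroup.det (diagElt a d * (uPlus s * uMinus b)) = a * d := by
    refine Units.ext ?_
    rw [GeneralLinearGroup.val_det_apply, hm, Matrix.det_fin_two_of, Units.val_mul]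
    ring
  refine ⟨Subtype.ext ?_, hd⟩
  rw [Matrix.SpecialLinearGroup.coe_mul, Matrix.SpecialLinearGroup.coe_mul, coe_sDiag, coe_sPlus,
    coe_sMinus, Matrix.mul_fin_two, Matrix.mul_fin_two]
  show !![_, _; _, _] = _
  rw [hd, hm]
  have ha := a.ne_zero
  have hd0 := d.ne_zero
  simp only [Units.val_inv_eq_inv_val, Units.val_mul]
  ext i j
  fin_cases i <;> fin_cases j <;> simp [-ZMod.inv_coe_unit] <;> field_simp <;> ring

end Linear

variable {q R n p : ℕ} [Fact q.Prime] [Fact p.Prime] [NeZero q] [NeZero n] [NeZero (q * n)]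
  [hcop : Fact (q.Coprime n)] [NeZero (q * R * q)] [hR : Fact (R ∣ n)]
  {A : ValuationSubring QBar} (hA : A.LiesOverPrime q)

omit [Fact p.Prime] [NeZero n] in
/-- `phiLin` is fixed by the diagonal matrices. -/
theorem sDiag_smul_phiLin {B : Type} [CommRing B] (a : (ZMod q)ˣ)
    (w : Fin (2 * Gamma0.genus (q * R * q)) → B) :
    sDiag a • phiLin q R n B w = phiLin q R n B w := by
  have hq : (q : ℤ) ≠ 0 := Int.natCast_ne_zero.mpr (Fact.out : q.Prime).ne_zero
  set l := liftSL (n := n) (sDiag a)⁻¹ with hl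
  have hent : ∀ i j, ((l i j : ℤ) : ZMod q) = ((sDiag a)⁻¹ : SL(2, ZMod q)) i j := fun i j => by
    rw [← map_liftSL (n := n) (sDiag a)⁻¹]; rfl
  obtain ⟨h01, h10⟩ : (q : ℤ) ∣ l 0 1 ∧ (q : ℤ) ∣ l 1 0 := by
    refine ⟨(ZMod.intCast_zmod_eq_zero_iff_dvd _ _).mp ((hent 0 1).trans ?_),
      (ZMod.intCast_zmod_eq_zero_iff_dvd _ _).mp ((hent 1 0).trans ?_)⟩ <;>
    simp [Matrix.SpecialLinearGroup.coe_inv, coe_sDiag, Matrix.adjugate_fin_two, -ZMod.inv_coe_unit]
  obtain ⟨β, hβ⟩ := h01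
  have hcR : ((q * R : ℕ) : ℤ) ∣ l 1 0 := by
    have hc : IsCoprime (q : ℤ) (R : ℤ) :=
      Nat.isCoprime_iff_coprime.mpr (hcop.out.coprime_dvd_right hR.out)
    push_cast
    exact hc.mul_dvd h10 ((Int.natCast_dvd_natCast.mpr hR.out).trans
      (entry_mem_Gamma (liftSL_mem (n := n) (sDiag a)⁻¹)).2.2.1)
  have hdet := l.det_coe
  rw [Matrix.det_fin_two, hβ] at hdet
  let c : SL(2, ℤ) := ⟨!![l 0 0, β; l 1 0 * (q : ℤ), l 1 1], by
    rw [Matrix.det_fin_two_of]; linear_combination hdet⟩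
  have hc : c ∈ Gamma0 (q * R * q) := by
    rw [Gamma0_mem, ZMod.intCast_zmod_eq_zero_iff_dvd]
    show ((q * R * q : ℕ) : ℤ) ∣ l 1 0 * (q : ℤ)
    rw [Nat.cast_mul]
    exact mul_dvd_mul_right hcR _
  refine AddMonoidHom.ext fun γ => ?_
  obtain ⟨γ, rfl⟩ := Additive.ofMul.surjective γ
  rw [smul_apply_eq]
  set γ' : Gamma (q * n) := ⟨l * γ * l⁻¹, (Gamma_normal _).conj_mem _ γ.2 _⟩
  let D : Matrix (Fin 2) (Fin 2) ℤ := !![1, 0; 0, (q : ℤ)]
  have hD : ∀ δ : Gamma (q * n),
      (rescale q n δ : Matrix (Fin 2) (Fin 2) ℤ) * D = D * ((δ : SL(2, ℤ)) : Matrix (Fin 2) (Fin 2) ℤ) := by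
    intro δ
    rw [coe_rescale, Matrix.eta_fin_two ((δ : SL(2, ℤ)) : Matrix (Fin 2) (Fin 2) ℤ),
      Matrix.mul_fin_two, Matrix.mul_fin_two]
    ext i j
    fin_cases i <;> fin_cases j <;> simp [upper_div_mul δ, mul_comm]
  have hcD : (c : Matrix (Fin 2) (Fin 2) ℤ) * D = D * (l : Matrix (Fin 2) (Fin 2) ℤ) := by
    rw [Matrix.eta_fin_two (l : Matrix (Fin 2) (Fin 2) ℤ), hβ]
    show !![_, _; _, _] * _ = _
    rw [Matrix.mul_fin_two, Matrix.mul_fin_two]
    ext i j
    fin_cases i <;> fin_cases j <;> simp [mul_comm]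
  have key : rescale q n γ' * c = c * rescale q n γ := by
    have hl' : (γ' : SL(2, ℤ)) * l = l * (γ : SL(2, ℤ)) := inv_mul_cancel_right _ _
    have e : ((rescale q n γ' * c : SL(2, ℤ)) : Matrix (Fin 2) (Fin 2) ℤ) * D =
        ((c * rescale q n γ : SL(2, ℤ)) : Matrix (Fin 2) (Fin 2) ℤ) * D := by
      rw [Matrix.SpecialLinearGroup.coe_mul, Matrix.SpecialLinearGroup.coe_mul, mul_assoc, hcD,
        ← mul_assoc, hD γ', mul_assoc, ← Matrix.SpecialLinearGroup.coe_mul, hl',
        Matrix.SpecialLinearGroup.coe_mul, ← mul_assoc, ← hcD, mul_assoc, ← hD γ, ← mul_assoc]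
    refine Subtype.ext (Matrix.ext fun i j => ?_)
    have e0 := congrFun (congrFun e i) j
    rw [Matrix.mul_apply, Matrix.mul_apply, Fin.sum_univ_two, Fin.sum_univ_two] at e0
    fin_cases j <;> simpa [D, hq, (Fact.out : q.Prime).ne_zero] using e0
  have key' : rescale0 q R n γ' = ⟨c, hc⟩ * rescale0 q R n γ * (⟨c, hc⟩ : Gamma0 (q * R * q))⁻¹ :=
    eq_mul_inv_of_mul_eq (Subtype.ext key)
  show (GaloisReps.atkinHom (q * R * q) B _) (Additive.ofMul (rescale0 q R n γ')) =
    (GaloisReps.atkinHom (q * R * q) B _) (Additive.ofMul (rescale0 q R n γ))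
  rw [key', ofMul_mul, ofMul_mul, ofMul_inv, map_add, map_add, map_neg]
  abel

include hA in
/-- The twisted trace of an eigenvector of inertia vanishes. -/
theorem twist_vanish {L : ℕ} (hL : L = 7 ∨ L = 9) (hLn : L ∣ n) (hpq : p ≠ q)
    (ι : ℤ_[p] →+* ℂ) (hι : Function.Injective ι) (χ θ : (ZMod q)ˣ →* ℂ) (h1 : θ ≠ χ)
    (h2 : θ * χ ≠ 1) {v : Fin (2 * Gamma0.genus (q * R * q)) → ℂ}
    (hv : ∀ σ ∈ A.inertiaSubgroupIn ℚ, ∀ a : (ZMod q)ˣ,
      (∀ μ : QBar, μ ^ q = 1 → σ μ = μ ^ (a : ZMod q).val) →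
        ((galMat q R (p := p) σ).map ι).mulVec v = θ a • v) :
    lowerTr (q := q) (twistOp χ (phiLin q R n ℂ v)) = 0 := by
  classical
  -- the rigid combinations vanish on `v`
  have hex : ∀ g : GL (Fin 2) (ZMod q),
      exprLin q R n hA ℂ ι (rigidExp q) g v = 0 := fun g => by
    refine AddMonoidHom.ext fun γ => ?_
    let Ez := exprLin q R n hA ℤ_[p] (RingHom.id _) (rigidExp q) g
    let X : Matrix Unit (Fin (2 * Gamma0.genus (q * R * q))) ℤ_[p] :=
      Matrix.of fun _ i => Ez (fun j => if i = j then 1 else 0) γ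
    let C : tameH A q × Fin (2 * Gamma0.genus (q * R * q)) →
        Fin (2 * Gamma0.genus (q * R * q)) → ℤ_[p] :=
      fun z s => (galMat q R (p := p) (z.1 : GQ) - 1) z.2 s
    have hX : ∀ w, (∀ i, ∑ s, C i s * w s = 0) → X.mulVec w = 0 := by
      intro w hw
      have hfix : ∀ σ ∈ tameH A q, (galMat q R σ).mulVec w = w := fun σ hσ => by
        funext i
        have h0 : ((galMat q R σ - 1).mulVec w) i = 0 := hw (⟨σ, hσ⟩, i)
        rw [Matrix.sub_mulVec, Matrix.one_mulVec, Pi.sub_apply, sub_eq_zero] at h0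
        exact h0
      funext u
      have e := congrArg (fun φ => φ γ) (LinearMap.pi_apply_eq_sum_univ Ez w)
      simp only [AddMonoidHom.finsetSum_apply] at e
      show ∑ i, X u i * w i = 0
      rw [show Ez w = 0 from exprLin_padic_eq_zero hA hL hLn hpq w hfix g] at e
      refine Eq.trans ?_ e.symm
      exact Finset.sum_congr rfl fun i _ => mul_comm _ _
    have hC : ∀ i, ∑ s, ι (C i s) * v s = 0 := by
      rintro ⟨⟨σ, hσ⟩, i⟩
      have h := hv σ hσ.1 1 fun μ hμ => by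
        rw [hσ.2 μ hμ, Units.val_one, ZMod.val_one, pow_one]
      rw [map_one, one_smul] at h
      show ∑ s, ι ((galMat q R σ - 1) i s) * v s = 0
      simp only [Matrix.sub_apply, map_sub, sub_mul, Finset.sum_sub_distrib]
      rw [sub_eq_zero]
      refine (congrFun h i).trans ?_
      simp [Matrix.one_apply, apply_ite ι]
    have h := congrFun (mulVec_eq_zero_of_conditions ι hι C X hX hC) ()
    have e := congrArg (fun φ => φ γ)
      (LinearMap.pi_apply_eq_sum_univ (exprLin q R n hA ℂ ι (rigidExp q) g) v)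
    simp only [AddMonoidHom.finsetSum_apply] at e
    refine e.trans (Eq.trans ?_ h)
    refine Finset.sum_congr rfl fun i _ => ?_
    have e' := DFunLike.congr_fun (exprLin_comp q R n hA ι (RingHom.id _) (rigidExp q) g
      (fun j => if i = j then (1 : ℤ_[p]) else 0)) γ
    rw [RingHom.comp_id] at e'
    simp only [apply_ite ι, map_one, map_zero] at e'
    show v i * _ = ι (Ez (fun j => if i = j then 1 else 0) γ) * v i
    rw [mul_comm]
    exact congrArg (· * v i) e'.symm
  -- their average against `χ`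
  set T := lowerTr (q := q) (twistOp χ (phiLin q R n ℂ v)) with hT
  let χi : (ZMod q)ˣ →* ℂ := χ.comp (MulEquiv.inv (ZMod q)ˣ).toMonoidHom
  have hsum : ∀ a d : (ZMod q)ˣ,
      ∑ w : (ZMod q)ˣ, χ w • ∑ s : ZMod q,
        monLin q R n hA ℂ ι (diagElt a d * (uPlus s * uMinus (-(w : ZMod q)))) v =
      ((θ * χ) a * (θ * χi) d) • T := by
    intro a d
    have e1 : ∀ w : (ZMod q)ˣ, ∑ s : ZMod q,
        monLin q R n hA ℂ ι (diagElt a d * (uPlus s * uMinus (-(w : ZMod q)))) v =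
        θ (a * d) • (sDiag a • lowerTr (q := q)
          (sPlus (((a * d * w : (ZMod q)ˣ) : ZMod q)) • phiLin q R n ℂ v)) := fun w => by
      simp only [lowerTr, Finset.smul_sum]
      refine Fintype.sum_equiv ((Equiv.neg _).trans (Units.mulLeft (a * d)⁻¹)) _ _ fun s => ?_
      obtain ⟨h1, h2⟩ := sOf_diag_uPlus_uMinus a d s (-(w : ZMod q))
      rw [monLin_apply, h2, hv _ (inertiaLift_mem hA _) _ fun μ hμ => inertiaLift_apply hA _ hμ,
        map_smul, smul_comm, h1, mul_smul, mul_smul,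
        mul_neg ((a * d : (ZMod q)ˣ) : ZMod q) (w : ZMod q), neg_neg, ← Units.val_mul]
      rfl
    simp only [e1, smul_comm (χ _) (θ (a * d))]
    rw [← Finset.smul_sum]
    have e2 : ∑ w : (ZMod q)ˣ, χ w • (sDiag a • lowerTr (q := q)
        (sPlus (((a * d * w : (ZMod q)ˣ) : ZMod q)) • phiLin q R n ℂ v)) =
        χ (a * d)⁻¹ • (sDiag a • T) := by
      rw [hT, twistOp, lowerTr_sum, Finset.smul_sum, Finset.smul_sum]
      refine Fintype.sum_equiv (Equiv.mulLeft (a * d)) _ _ fun w => ?_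
      rw [Equiv.coe_mulLeft, lowerTr_smul, smul_comm (sDiag a), smul_smul, ← map_mul,
        inv_mul_cancel_left]
    rw [e2, hT, sDiag_lowerTr_twistOp χ (fun b => sDiag_smul_phiLin (n := n) b v) a, ← hT, smul_smul,
      smul_smul]
    congr 1
    show θ (a * d) * χ (a * d)⁻¹ * (χ a * χ a) = θ a * χ a * (θ d * χ d⁻¹)
    rw [mul_assoc, ← map_mul χ, ← map_mul χ, map_mul θ,
      show (a * d)⁻¹ * (a * a) = a * d⁻¹ by rw [mul_inv, mul_comm a⁻¹, mul_assoc, inv_mul_cancel_left, mul_comm], map_mul χ]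
    ring
  have hzero : ∑ w : (ZMod q)ˣ, χ w • exprLin q R n hA ℂ ι (rigidExp q)
      (uMinus (-(w : ZMod q))) v = 0 := by simp [hex]
  simp only [exprLin_apply, ← smul_comm (rigidExp q) (χ _)] at hzero
  rw [← Finset.smul_sum] at hzero
  simp only [← hollow_smul] at hzero
  rw [← hollow_sum] at hzero
  simp only [hsum] at hzero
  rw [hollow_char] at hzero
  · have hq1 : ((q : ℤ) - 1) * ((q : ℤ) - 1) ≠ 0 := by
      have := (Fact.out : q.Prime).two_le
      exact mul_ne_zero (by omega) (by omega)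
    rw [← Int.cast_smul_eq_zsmul ℂ, ← Nat.cast_smul_eq_nsmul ℂ, smul_smul] at hzero
    exact (smul_eq_zero.mp hzero).resolve_left
      (mul_ne_zero (Nat.cast_ne_zero.mpr (rigidExp_pos q).ne') (Int.cast_ne_zero.mpr hq1))
  · exact h2
  · intro h
    refine h1 (MonoidHom.ext fun d => ?_)
    have h' : θ d * χ d⁻¹ = 1 := DFunLike.congr_fun h d
    calc θ d = θ d * (χ d⁻¹ * χ d) := by rw [← map_mul, inv_mul_cancel, map_one, mul_one]
      _ = χ d := by rw [← mul_assoc, h', one_mul]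

end Fermat.Agent.RT.InertiaTW
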